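import Fermat.Agent.S48.W1.Lat
import Fermat.Agent.S48.W1.Abs.Model

/-!
# S48 / W1b : an eigenform with the same eigenvalues, the same nebentypus and algebraic coefficients with bounded denominators

This replaces the depletion `f₀ = ∑_{(n,N)=1} a_n q^n` of the blueprint: no change of level.
-/

set_option autoImplicit false

open UpperHalfPlane ModularForm CongruenceSubgroup
open scoped MatrixGroups Manifold

namespace Fermat.Agent.S48.W1

variable {N : ℕ} [NeZero N] {ε : DirichletCharacter ℂ N} {f : CuspForm (Gamma1 N) 1}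

theorem isIntegral_eps (ε : DirichletCharacter ℂ N) (a : ZMod N) : IsIntegral ℤ (ε a) := by
  by_cases ha : IsUnit a
  · obtain ⟨u, rfl⟩ := ha
    have h1 : (ε u) ^ (Fintype.card (ZMod N)ˣ) = 1 := by
      rw [← map_pow, ← Units.val_pow_eq_pow_val, pow_card_eq_one, Units.val_one, map_one]
    exact IsIntegral.of_pow Fintype.card_pos (h1 ▸ isIntegral_one)
  · rw [ε.map_nonunit ha]
    exact isIntegral_zero

theorem isAlgebraic_of_isIntegral {x : ℂ} (h : IsIntegral ℤ x) : IsAlgebraic ℚ x :=
  (h.tower_top (A := ℚ)).isAlgebraic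

/-- **The integral model.** -/
theorem exists_integral_model (hf : IsEigen N ε f) :
    ∃ (g : CuspForm (Gamma1 N) 1) (D : ℕ), D ≠ 0 ∧ IsEigen N ε g ∧
      (∀ p : ℕ, p.Prime → ¬ p ∣ N →
        ModularFormClass.qCoeff g p = ModularFormClass.qCoeff f p) ∧
      (∀ n, IsIntegral ℤ ((D : ℂ) * ModularFormClass.qCoeff g n)) ∧ HasChar N 1 ε g := by
  let K : Subfield ℂ := (algebraicClosure ℚ ℂ).toSubfield
  have hK : ∀ x ∈ K, IsAlgebraic ℚ x := fun x hx => mem_algebraicClosure_iff.1 hx
  have hK' : ∀ x : ℂ, IsIntegral ℤ x → x ∈ K := fun x hx =>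
    mem_algebraicClosure_iff.2 (isAlgebraic_of_isIntegral hx)
  obtain ⟨g, D, π, hD, hπ1, hπadd, hπK, hc, hint⟩ := Abs.exists_model (span_lat N) K hK f
  have hπ0 : π 0 = 0 := by
    have := hπadd 0 0
    rw [add_zero] at this
    exact (add_eq_left.1 this.symm)
  have hg : ∀ n, ModularFormClass.qCoeff g n = π (ModularFormClass.qCoeff f n) := by
    intro n
    have := hc (1, n)
    rwa [cc_apply, cc_apply, dia_one, dia_one] at this
  have hap : ∀ p : ℕ, p.Prime → ¬ p ∣ N →
      ModularFormClass.qCoeff g p = ModularFormClass.qCoeff f p := by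
    intro p hp hpN
    rw [hg]
    have := hπK _ (hK' _ (isIntegral_coeff' hf hp hpN)) 1
    rwa [mul_one, hπ1, mul_one] at this
  refine ⟨g, D, hD, ⟨by rw [hg, hf.one, hπ1], ?_⟩, hap, ?_, ?_⟩
  · intro p hp hpN n
    rw [hap p hp hpN]
    simp only [hg]
    rw [← hπK _ (hK' _ (isIntegral_coeff' hf hp hpN)), ← hf.rel p hp hpN n,
      hπadd, hπK _ (hK' _ (isIntegral_eps ε _))]
    split_ifs
    · rfl
    · rw [hπ0]
  · intro n
    have := hint (1, n)
    rwa [cc_apply, dia_one] at this
  · rw [hasChar_iff]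
    intro d
    apply qcL_injective N 1
    funext n
    rw [map_smul, Pi.smul_apply, qcL_apply, qcL_apply, smul_eq_mul, hg]
    have := hc (d, n)
    rw [cc_apply, cc_apply, neb hf d] at this
    rw [this, ← hπK _ (hK' _ (isIntegral_eps ε _))]
    congr 1
    have h2 := congrFun (map_smul (qcL N 1) (ε (d : ZMod N)) f) n
    exact h2

end Fermat.Agent.S48.W1
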