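import Fermat.Agent.S48.W1.Aut

/-!
# S48 / W1b / task W1-North : Northcott's theorem in bounded degree (Mathlib only)

## W1-North (`northcott`, ~150 lines)
Let `x` be in the set, `P = minpoly ℤ x` (monic, `minpoly.isIntegrallyClosed_eq_field_fractions'`: `minpoly ℚ x = P.map (Int.castRingHom ℚ)`).  Every complex root `y` of `P` is `σ x` (`exists_aut`), so `y ∈ R` and `‖y‖ ≤ B`.  `minpoly ℚ x` is separable (char 0: `minpoly.irreducible`, `Irreducible.separable`) and splits over `ℂ` (`IsAlgClosed.splits`):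
`natDegree P = card (roots) = card (roots.toFinset) ≤ card R ≤ d` (`Polynomial.splits_iff_card_roots`, `Polynomial.nodup_roots`, `Multiset.toFinset_card_of_nodup`).
`Polynomial.coeff_bdd_of_roots_le` (Mathlib, used in `NumberField.Embeddings.finite_of_norm_le`: read that proof, this one is a TWIN): `‖coeff‖ ≤ max B 1 ^ d * d.choose (d / 2) =: C`.  So the coefficients of `P` lie in the finite set `Set.Icc (-⌈C⌉) ⌈C⌉ ⊆ ℤ`, and `x` lies in
`⋃ (f : ℤ[X]) (_ : f.natDegree ≤ d ∧ ∀ i, f.coeff i ∈ Icc ..), ((f.map (algebraMap ℤ ℂ)).roots.toFinset : Set ℂ)`, finite by `Polynomial.bUnion_roots_finite`.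
-/

set_option autoImplicit false

namespace Fermat.Agent.S48.W1

theorem northcott (d : ℕ) (B : ℝ) :
    {x : ℂ | IsIntegral ℤ x ∧ (∃ R : Finset ℂ, R.card ≤ d ∧ ∀ σ : ℂ ≃+* ℂ, σ x ∈ R) ∧
      ∀ σ : ℂ ≃+* ℂ, ‖σ x‖ ≤ B}.Finite := by
  classical
  let C := Nat.ceil (max B 1 ^ d * d.choose (d / 2))
  have := Polynomial.bUnion_roots_finite (algebraMap ℤ ℂ) d (Set.finite_Icc (-C : ℤ) C)
  refine this.subset fun x hx => ?_
  simp_rw [Set.mem_iUnion]
  obtain ⟨hint, ⟨R, hRd, hR⟩, hB⟩ := hx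
  have hintQ : IsIntegral ℚ x := hint.tower_top
  have halg : IsAlgebraic ℚ x := hintQ.isAlgebraic
  have h_map := minpoly.isIntegrallyClosed_eq_field_fractions' ℚ hint
  -- roots of the minimal polynomial are conjugates
  have hroot : ∀ z ∈ ((minpoly ℚ x).map (algebraMap ℚ ℂ)).roots, ∃ σ : ℂ ≃+* ℂ, σ x = z := by
    intro z hz
    apply exists_aut halg
    rw [Polynomial.mem_roots (Polynomial.map_ne_zero (minpoly.ne_zero hintQ)),
      Polynomial.IsRoot.def, Polynomial.eval_map_algebraMap] at hz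
    exact hz
  have hsep : (minpoly ℚ x).Separable := (minpoly.irreducible hintQ).separable
  have hdeg : (minpoly ℚ x).natDegree ≤ d := by
    have h1 : ((minpoly ℚ x).map (algebraMap ℚ ℂ)).roots.card = (minpoly ℚ x).natDegree := by
      rw [← Polynomial.natDegree_map (algebraMap ℚ ℂ)]
      exact (Polynomial.splits_iff_card_roots.mp (IsAlgClosed.splits _))
    have h2 : ((minpoly ℚ x).map (algebraMap ℚ ℂ)).roots.Nodup :=
      Polynomial.nodup_roots hsep.map
    rw [← h1, ← Multiset.toFinset_card_of_nodup h2]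
    refine le_trans (Finset.card_le_card ?_) hRd
    intro z hz
    rw [Multiset.mem_toFinset] at hz
    obtain ⟨σ, rfl⟩ := hroot z hz
    exact hR σ
  refine ⟨minpoly ℤ x, ⟨?_, fun i => ?_⟩, ?_⟩
  · rw [← (minpoly.monic hint).natDegree_map (algebraMap ℤ ℚ), ← h_map]
    exact hdeg
  · rw [Set.mem_Icc, ← abs_le, ← @Int.cast_le ℝ]
    have hb : ‖((minpoly ℚ x).map (algebraMap ℚ ℂ)).coeff i‖ ≤ max B 1 ^ d * d.choose (d / 2) := by
      refine Polynomial.coeff_bdd_of_roots_le _ (minpoly.monic hintQ) (IsAlgClosed.splits _) hdeg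
        (fun z hz => ?_) i
      obtain ⟨σ, rfl⟩ := hroot z hz
      exact hB σ
    refine (Eq.trans_le ?_ hb).trans (Nat.le_ceil _)
    rw [Polynomial.coeff_map, norm_algebraMap', h_map, Polynomial.coeff_map, eq_intCast,
      Int.norm_cast_rat, Int.norm_eq_abs, Int.cast_abs]
  · rw [Finset.mem_coe, Multiset.mem_toFinset,
      Polynomial.mem_roots ((Polynomial.map_ne_zero_iff
        (algebraMap ℤ ℂ).injective_int).mpr (minpoly.ne_zero hint)),
      Polynomial.IsRoot.def, Polynomial.eval_map_algebraMap]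
    exact minpoly.aeval ℤ x

end Fermat.Agent.S48.W1
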