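import Fermat.Agent.S48.W1.Orbit
import Fermat.Agent.S48.W1.North
import Fermat.Agent.S48.RK.Main

/-!
# S48 / W1b : finiteness of the values `a_p` up to density `e₀`
-/

set_option autoImplicit false

open UpperHalfPlane ModularForm CongruenceSubgroup
open scoped MatrixGroups Manifold

namespace Fermat.Agent.S48.W1

variable {N : ℕ} [NeZero N] {ε : DirichletCharacter ℂ N} {f : CuspForm (Gamma1 N) 1}

theorem finite_values' (hf : IsEigen N ε f) (e₀ : ℝ) (he₀ : 0 < e₀) :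
    ∃ (Y : Finset ℂ) (C : ℝ), ∀ t ∈ Set.Ioc (1 : ℝ) 2,
      pSum {p : ℕ | p.Prime ∧ ¬ p ∣ N ∧ ModularFormClass.qCoeff f p ∉ Y} t ≤ e₀ * LL t + C := by
  classical
  have hfin := finite_sys hf
  have : Fintype (Set.range (sys N f)) := hfin.fintype
  -- representatives
  have h1 : ∀ i : Set.range (sys N f), ∃ σ : ℂ ≃+* ℂ, sys N f σ = i.1 := fun i => i.2
  choose σ hσ using h1
  have h2 : ∀ i : Set.range (sys N f), ∃ f' : CuspForm (Gamma1 N) 1,
      IsEigen N (ε.ringHomComp (σ i).toRingHom) f' ∧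
      ∀ n, ModularFormClass.qCoeff f' n = (σ i) (ModularFormClass.qCoeff f n) :=
    fun i => isEigen_conj hf (σ i).toRingHom
  choose F hF hFc using h2
  have h3 := fun i => RK.weak_finset (hF i)
  choose K C hK hC hKC using h3
  set Kt : ℝ := ∑ i, K i with hKt
  set Ct : ℝ := ∑ i, C i with hCt
  have hKt0 : 0 ≤ Kt := Finset.sum_nonneg fun i _ => hK i
  have hCt0 : 0 ≤ Ct := Finset.sum_nonneg fun i _ => hC i
  set c : ℝ := max 1 (Kt / e₀) with hc
  have hc1 : 1 ≤ c := le_max_left _ _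
  have hc0 : 0 < c := lt_of_lt_of_le one_pos hc1
  have hcK : Kt / c ≤ e₀ := by
    rw [div_le_iff₀ hc0]
    have : Kt / e₀ ≤ c := le_max_right _ _
    rw [div_le_iff₀ he₀] at this
    linarith
  set Y : Finset ℂ := (northcott (Fintype.card (Set.range (sys N f))) (Real.sqrt c)).toFinset with hY
  refine ⟨Y, Ct, fun t ht => ?_⟩
  have hLL := RK.LL_nonneg ht
  -- the key property of bad primes
  have key : ∀ p : ℕ, p.Prime → ¬ p ∣ N → ModularFormClass.qCoeff f p ∉ Y →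
      ∃ i, c < ‖ModularFormClass.qCoeff (F i) p‖ ^ 2 := by
    intro p hp hpN hpY
    have hsys : ∀ τ : ℂ ≃+* ℂ, τ (ModularFormClass.qCoeff f p) = sys N f τ p := by
      intro τ
      rw [sys, if_pos ⟨hp, hpN⟩]
    have hnot : ¬ ∀ τ : ℂ ≃+* ℂ, ‖τ (ModularFormClass.qCoeff f p)‖ ≤ Real.sqrt c := by
      intro hall
      apply hpY
      rw [hY, Set.Finite.mem_toFinset]
      refine ⟨isIntegral_coeff' hf hp hpN,
        ⟨Finset.univ.image fun i : Set.range (sys N f) => i.1 p, ?_, ?_⟩, hall⟩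
      · exact Finset.card_image_le.trans (by rw [Finset.card_univ])
      · intro τ
        rw [hsys τ]
        exact Finset.mem_image.2 ⟨⟨sys N f τ, τ, rfl⟩, Finset.mem_univ _, rfl⟩
    push Not at hnot
    obtain ⟨τ, hτ⟩ := hnot
    refine ⟨⟨sys N f τ, τ, rfl⟩, ?_⟩
    rw [hFc, hsys, hσ]
    show c < ‖sys N f τ p‖ ^ 2
    rw [← hsys]
    exact Real.lt_sq_of_sqrt_lt hτ
  -- bound of the finite sums
  have hB : 0 ≤ e₀ * LL t + Ct := by positivity
  unfold pSum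
  refine tsum_le_of_sum_le' hB fun s => ?_
  set s' : Finset ℕ := s.image (Subtype.val) with hs'
  have hs'mem : ∀ p ∈ s', p.Prime ∧ ¬ p ∣ N ∧ ModularFormClass.qCoeff f p ∉ Y := by
    intro p hp
    obtain ⟨q, _, rfl⟩ := Finset.mem_image.1 hp
    exact q.2
  have e1 : ∑ p ∈ s, ((p : ℕ) : ℝ) ^ (-t) = ∑ p ∈ s', (p : ℝ) ^ (-t) := by
    rw [hs', Finset.sum_image (fun a _ b _ hab => Subtype.ext hab)]
  rw [e1]
  have e2 : ∀ p ∈ s', (p : ℝ) ^ (-t) ≤
      ∑ i, (1 / c) * (‖ModularFormClass.qCoeff (F i) p‖ ^ 2 * (p : ℝ) ^ (-t)) := by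
    intro p hp
    obtain ⟨hp1, hp2, hp3⟩ := hs'mem p hp
    obtain ⟨i, hi⟩ := key p hp1 hp2 hp3
    have hpt : 0 ≤ (p : ℝ) ^ (-t) := Real.rpow_nonneg (Nat.cast_nonneg p) _
    have h4 : (p : ℝ) ^ (-t) ≤
        (1 / c) * (‖ModularFormClass.qCoeff (F i) p‖ ^ 2 * (p : ℝ) ^ (-t)) := by
      rw [← mul_assoc]
      have : 1 ≤ 1 / c * ‖ModularFormClass.qCoeff (F i) p‖ ^ 2 := by
        rw [one_div, ← div_eq_inv_mul, le_div_iff₀ hc0]
        linarith
      nlinarith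
    refine h4.trans (Finset.single_le_sum
      (f := fun i => (1 / c) * (‖ModularFormClass.qCoeff (F i) p‖ ^ 2 * (p : ℝ) ^ (-t)))
      (fun j _ => ?_) (Finset.mem_univ i))
    positivity
  calc ∑ p ∈ s', (p : ℝ) ^ (-t)
      ≤ ∑ p ∈ s', ∑ i, (1 / c) * (‖ModularFormClass.qCoeff (F i) p‖ ^ 2 * (p : ℝ) ^ (-t)) :=
        Finset.sum_le_sum e2
    _ = (1 / c) * ∑ i, ∑ p ∈ s', ‖ModularFormClass.qCoeff (F i) p‖ ^ 2 * (p : ℝ) ^ (-t) := by
        rw [Finset.sum_comm, Finset.mul_sum]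
        exact Finset.sum_congr rfl fun i _ => by rw [Finset.mul_sum]
    _ ≤ (1 / c) * ∑ i, (K i * LL t + C i) := by
        apply mul_le_mul_of_nonneg_left _ (by positivity)
        exact Finset.sum_le_sum fun i _ =>
          hKC i t ht s' fun p hp => ⟨(hs'mem p hp).1, (hs'mem p hp).2.1⟩
    _ = (Kt / c) * LL t + Ct / c := by
        rw [Finset.sum_add_distrib, ← Finset.sum_mul]
        ring
    _ ≤ e₀ * LL t + Ct := by
        have h5 : Ct / c ≤ Ct := div_le_self hCt0 hc1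
        have h6 : (Kt / c) * LL t ≤ e₀ * LL t := mul_le_mul_of_nonneg_right hcK hLL
        linarith

end Fermat.Agent.S48.W1
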