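import Fermat.Agent.S48.W1.Dia
import Fermat.Prelude.Thm_ModularForm_sturm_bound_of_isArithmetic

/-!
# S48 / W1a / task W1-Coeff : `q`-coefficients as linear maps, finite dimensionality  (~120 lines)

Twin of the first 60 lines of `Fermat/Agent/S23/Main.lean` (`coeffMap`, `main_eq_zero_of_sturm`, `coeffMap_injective`, `main_finiteDimensional`) with `Γ₀(N)` replaced by `Γ₁(N)`,
`CongruenceSubgroup.one_mem_strictPeriods_Gamma0 N` by `one_mem_strictPeriods N` and `ModularForm.sturm_bound_Gamma0` by `ModularForm.sturm_bound_of_isArithmetic (one_mem_strictPeriods N)`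
(its hypothesis is `(B : ℕ∞) < (qExpansion 1 f).order`, `B = (k * relIndex).toNat / 12`: `PowerSeries.order` is `> B` if the coefficients `≤ B` vanish: `PowerSeries.nat_le_order` / `PowerSeries.le_order`, or simply: if ALL coefficients vanish the series is `0` and its order is `⊤`
(`PowerSeries.order_zero`, `PowerSeries.ext`), which is enough for `qcL_injective`; for finite dimensionality use `Fermat.Agent.S23.cert_finrank_le` (file `S23/Certificate.lean`: `FiniteDimensional ℂ (ModularForm 𝒢 w)` for arithmetic `𝒢`)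
and the injective linear map `Sk N k → ModularForm (Gamma1 N) k`, or copy `main_finiteDimensional`).
-/

set_option autoImplicit false

open UpperHalfPlane ModularForm CongruenceSubgroup
open scoped MatrixGroups Manifold

namespace Fermat.Agent.S48.W1

/-- the `q`-expansion coefficients as a linear map. -/
noncomputable def qcL (N : ℕ) (k : ℤ) : Sk N k →ₗ[ℂ] (ℕ → ℂ) where
  toFun f n := ModularFormClass.qCoeff f n
  map_add' f g := by
    funext n
    have := ModularForm.qExpansion_add one_pos (one_mem_strictPeriods N) f g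
    simp only [FunLike.coe_add, Pi.add_apply, ModularFormClass.qCoeff]
    rw [this, map_add]
  map_smul' c f := by
    funext n
    have := ModularForm.qExpansion_smul one_pos (one_mem_strictPeriods N) c f
    simp only [FunLike.coe_smul, Pi.smul_apply, RingHom.id_apply, ModularFormClass.qCoeff]
    rw [this, PowerSeries.coeff_smul]

theorem qcL_apply (N : ℕ) (k : ℤ) (f : Sk N k) (n : ℕ) :
    qcL N k f n = ModularFormClass.qCoeff f n := rfl

variable (N : ℕ) [NeZero N] (k : ℤ)

theorem eq_zero_of_sturm (f : Sk N k)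
    (h : ∀ n ≤ (k * ((Gamma1 N : Subgroup SL(2, ℤ)) : Subgroup (GL (Fin 2) ℝ)).relIndex 𝒮ℒ).toNat / 12,
      ModularFormClass.qCoeff f n = 0) : f = 0 := by
  have hmf : (ModularFormClass.modularForm f : ModularForm (Gamma1 N) k) = 0 := by
    refine ModularForm.sturm_bound_of_isArithmetic (one_mem_strictPeriods N) ?_
    have h1 : ((((k * ((Gamma1 N : Subgroup SL(2, ℤ)) : Subgroup (GL (Fin 2) ℝ)).relIndex 𝒮ℒ).toNat
        / 12 + 1 : ℕ)) : ℕ∞) ≤ (qExpansion 1 (ModularFormClass.modularForm f :
          ModularForm (Gamma1 N) k)).order := by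
      refine PowerSeries.nat_le_order _ _ fun i hi => ?_
      exact h i (Nat.lt_succ_iff.mp hi)
    refine lt_of_lt_of_le ?_ h1
    exact_mod_cast Nat.lt_succ_self _
  ext τ
  exact congrArg (fun F : ModularForm (Gamma1 N) k => F τ) hmf

theorem qcL_injective : Function.Injective (qcL N k) := by
  rw [injective_iff_map_eq_zero]
  intro f hf
  exact eq_zero_of_sturm N k f fun n _ => congrFun hf n

theorem finiteDimensional : FiniteDimensional ℂ (Sk N k) := by
  let B := (k * ((Gamma1 N : Subgroup SL(2, ℤ)) : Subgroup (GL (Fin 2) ℝ)).relIndex 𝒮ℒ).toNat / 12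
  let tr : Sk N k →ₗ[ℂ] (Fin (B + 1) → ℂ) :=
    (LinearMap.funLeft ℂ ℂ (fun i : Fin (B + 1) => (i : ℕ))).comp (qcL N k)
  have htr : Function.Injective tr := by
    rw [injective_iff_map_eq_zero]
    intro f hf
    refine eq_zero_of_sturm N k f fun n hn => ?_
    exact congrFun hf ⟨n, Nat.lt_succ_of_le hn⟩
  exact FiniteDimensional.of_injective tr htr

theorem qCoeff_zero (g : Sk N k) : ModularFormClass.qCoeff g 0 = 0 :=
  CuspFormClass.qExpansion_coeff_zero g one_pos (one_mem_strictPeriods N)

/-- all `q`-coefficients of all `⟨d⟩ g`. -/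
noncomputable def cc : Sk N k →ₗ[ℂ] ((ZMod N)ˣ × ℕ → ℂ) where
  toFun g i := qcL N k (dia N k i.1 g) i.2
  map_add' f g := by
    funext i
    simp only [map_add, Pi.add_apply]
  map_smul' c f := by
    funext i
    simp only [map_smul, Pi.smul_apply, RingHom.id_apply]

theorem cc_apply (g : Sk N k) (d : (ZMod N)ˣ) (n : ℕ) :
    cc N k g (d, n) = ModularFormClass.qCoeff (dia N k d g) n := rfl

theorem cc_injective : Function.Injective (cc N k) := by
  intro g g' h
  apply qcL_injective N k
  funext n
  have := congrFun h (1, n)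
  rwa [cc_apply, cc_apply, dia_one, dia_one] at this

theorem cc_dia (g : Sk N k) (d e : (ZMod N)ˣ) (n : ℕ) :
    cc N k (dia N k e g) (d, n) = cc N k g (e * d, n) := by
  rw [cc_apply, cc_apply, dia_mul]

end Fermat.Agent.S48.W1
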