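import Fermat.Agent.S48.W1.HeckeCov
import Fermat.Agent.S48.W1.Coeff
import Fermat.Prelude.Thm_CuspFormClass_isZeroAt_heckeT
import Fermat.Prelude.Thm_CuspFormClass_isZeroAt_heckeU
import Fermat.Prelude.Thm_ModularForm_mdifferentiable_heckeT
import Fermat.Prelude.Thm_ModularForm_mdifferentiable_heckeU
import Fermat.Prelude.Thm_UpperHalfPlane_qCoeff_heckeT
import Fermat.Prelude.Thm_UpperHalfPlane_qCoeff_heckeU
import Fermat.Prelude.Thm_ModularForm_periodic_heckeT_comp_ofComplex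
import Fermat.Prelude.Thm_ModularForm_periodic_heckeU_comp_ofComplex
import Fermat.Prelude.Thm_ModularForm_isBoundedAtImInfty_heckeT
import Fermat.Prelude.Thm_ModularForm_isBoundedAtImInfty_heckeU

/-!
# S48 / W1a / task W1-Hecke : the Hecke operator `T_p` (`p ∤ N`) on `S_k(Γ₁(N))`  (~250 lines)

`T_p g = heckeU k p g + (⟨p⟩ g) ∣[k] diag(p,1)`.

NOTE `h ∣[k] heckeDiagMatrix p = heckeT k p h - heckeU k p h` (`heckeT_eq_heckeU_add`), so every property of `∣[k] heckeDiagMatrix p` follows from the Prelude statements on `heckeT`, `heckeU`.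
* `slashD_isNice`, `heckeU_isNice`: `S23.IsNice = Periodic ∧ MDiff ∧ IsBoundedAtImInfty`: `ModularForm.periodic_heckeT_comp_ofComplex`, `ModularForm.mdifferentiable_heckeT`, `ModularForm.isBoundedAtImInfty_heckeT` (and `U`), differences (`Function.Periodic.sub`, `MDifferentiable.sub`, `Filter.BoundedAtFilter.sub` …; or `S23.niceSub` is a subalgebra: `sub_mem`).
* `qCoeff_slashD`: `UpperHalfPlane.qCoeff_heckeT`, `UpperHalfPlane.qCoeff_heckeU`, `coeffHeckeT`, `coeffHeckeU`; `qCoeff (F - G) n = qCoeff F n - qCoeff G n` for nice `F, G` (`UpperHalfPlane.qExpansion_sub` with `S23.IsNice.analyticAt`, or `map_sub S23.qHom`).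
* `exists_Tp`: `F = heckeU k p g + (dia .. g) ∣[k] D`.  `exists_cuspForm'`: `MDiff`: above; invariance under `δ ∈ Γ₁(N)`: `heckeT_cov` with `φ₀ = ψ₀ = g`, `φ₁ = ψ₁ = ⟨p⟩g`, `lr N δ = 1`:
  `h00`: `slash_eq` (`mem_Gamma1_iff`); `h11` the same for `⟨p⟩ g`; `h01`: `dia_spec (punit N p) g` (`coe_punit`); `h10`: `(⟨p⟩g) ∣[k] γ' = dia e (dia p g) = dia (p e) g = dia 1 g = g` with `e = (isUnit_lr _).unit`.
  cusps: `CuspFormClass.isZeroAt_heckeU g p hc`, `CuspFormClass.isZeroAt_heckeT (dia .. g) p hc`, `..heckeU (dia .. g) ..`, `OnePoint.IsZeroAt.add`, and for the difference `IsZeroAt` of `-F` (unfold `OnePoint.IsZeroAt`, `SlashAction.neg_slash`, `Filter.ZeroAtFilter.neg`).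
  Linearity: `DFunLike.coe_injective`, `heckeU_add`, `heckeU_smul`, `SlashAction.add_slash`, `ModularForm.smul_slash` + `σ_heckeDiagMatrix`.
* `dia_Tp`: `DFunLike.coe_injective`; `γ` from `exists_rep d 1`; `dia_spec`, `coe_Tp`, `heckeT_cov` with `φ₀ = g`, `φ₁ = ⟨p⟩g`, `ψ₀ = ⟨d⟩g`, `ψ₁ = ⟨p⟩⟨d⟩g` (`dia_spec`, `dia_mul`, `dia_comm`).
-/

set_option autoImplicit false

open UpperHalfPlane ModularForm CongruenceSubgroup
open scoped MatrixGroups Manifold

namespace Fermat.Agent.S48.W1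

theorem heckeU_isNice {F : ℍ → ℂ} (hF : S23.IsNice F) (k : ℤ) (p : ℕ) :
    S23.IsNice (heckeU k p F) :=
  ⟨ModularForm.periodic_heckeU_comp_ofComplex hF.1 k p, ModularForm.mdifferentiable_heckeU hF.2.1 k p,
    ModularForm.isBoundedAtImInfty_heckeU hF.2.2 k p⟩

theorem heckeT_isNice {F : ℍ → ℂ} (hF : S23.IsNice F) (k : ℤ) (p : ℕ) :
    S23.IsNice (heckeT k p F) :=
  ⟨ModularForm.periodic_heckeT_comp_ofComplex hF.1 k p, ModularForm.mdifferentiable_heckeT hF.2.1 k p,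
    ModularForm.isBoundedAtImInfty_heckeT hF.2.2 k p⟩

theorem slashD_eq_sub (F : ℍ → ℂ) (k : ℤ) (p : ℕ) :
    F ∣[k] heckeDiagMatrix p = heckeT k p F - heckeU k p F := by
  rw [heckeT_eq_heckeU_add]
  abel

theorem slashD_isNice {F : ℍ → ℂ} (hF : S23.IsNice F) (k : ℤ) (p : ℕ) :
    S23.IsNice (F ∣[k] heckeDiagMatrix p) := by
  rw [slashD_eq_sub]
  exact S23.niceSub.sub_mem (heckeT_isNice hF k p) (heckeU_isNice hF k p)

theorem qCoeff_add {F G : ℍ → ℂ} (hF : S23.IsNice F) (hG : S23.IsNice G) (n : ℕ) :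
    ModularFormClass.qCoeff (F + G) n = ModularFormClass.qCoeff F n + ModularFormClass.qCoeff G n := by
  rw [ModularFormClass.qCoeff, ModularFormClass.qCoeff, ModularFormClass.qCoeff,
    qExpansion_add hF.analyticAt hG.analyticAt, map_add]

theorem qCoeff_smul {F : ℍ → ℂ} (hF : S23.IsNice F) (c : ℂ) (n : ℕ) :
    ModularFormClass.qCoeff (c • F) n = c * ModularFormClass.qCoeff F n := by
  rw [ModularFormClass.qCoeff, ModularFormClass.qCoeff, qExpansion_smul hF.analyticAt,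
    PowerSeries.coeff_smul, smul_eq_mul]

theorem qCoeff_heckeU {F : ℍ → ℂ} (hF : S23.IsNice F) (k : ℤ) {p : ℕ} (hp : p ≠ 0) (n : ℕ) :
    ModularFormClass.qCoeff (heckeU k p F) n = ModularFormClass.qCoeff F (n * p) := by
  rw [UpperHalfPlane.qCoeff_heckeU hF.1 hF.2.1 hF.2.2 k hp, coeffHeckeU_apply]

theorem qCoeff_slashD {F : ℍ → ℂ} (hF : S23.IsNice F) (k : ℤ) {p : ℕ} (hp : p ≠ 0) (n : ℕ) :
    ModularFormClass.qCoeff (F ∣[k] heckeDiagMatrix p) n =
      if p ∣ n then (p : ℂ) ^ (k - 1) * ModularFormClass.qCoeff F (n / p) else 0 := by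
  have h1 := UpperHalfPlane.qCoeff_heckeT hF.1 hF.2.1 hF.2.2 k hp n
  rw [heckeT_eq_heckeU_add, qCoeff_add (heckeU_isNice hF k p) (slashD_isNice hF k p),
    qCoeff_heckeU hF k hp, coeffHeckeT_apply] at h1
  exact add_left_cancel h1

/-- nice functions are determined by their `q`-coefficients. -/
theorem eq_of_qCoeff {F G : ℍ → ℂ} (hF : S23.IsNice F) (hG : S23.IsNice G)
    (h : ∀ n, ModularFormClass.qCoeff F n = ModularFormClass.qCoeff G n) : F = G := by
  have h1 : S23.qHom ⟨F, hF⟩ = S23.qHom ⟨G, hG⟩ := by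
    rw [S23.qHom_apply, S23.qHom_apply]
    exact PowerSeries.ext h
  exact congrArg Subtype.val (S23.qHom_injective h1)

theorem isZeroAt_neg {c : OnePoint ℝ} {F : ℍ → ℂ} {k : ℤ} (h : c.IsZeroAt F k) :
    c.IsZeroAt (-F) k := by
  intro g hg
  rw [SlashAction.neg_slash]
  exact Filter.ZeroAtFilter.neg (h g hg)

variable (N : ℕ) [NeZero N] (k : ℤ)

/-- covariance of `T_p` under `Γ₀(N)`. -/
theorem Tp_cov {p : ℕ} (hp : p.Prime) (hpN : ¬ p ∣ N) (g : Sk N k) (d : (ZMod N)ˣ)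
    {γ : SL(2, ℤ)} (hγ : γ ∈ Gamma0 N) (hd : lr N γ = d) :
    (heckeU k p ⇑g + ⇑(dia N k (punit N p) g) ∣[k] heckeDiagMatrix p) ∣[k] γ =
      heckeU k p ⇑(dia N k d g) +
        ⇑(dia N k (punit N p) (dia N k d g)) ∣[k] heckeDiagMatrix p := by
  have hpu : ((punit N p : (ZMod N)ˣ) : ZMod N) = p := coe_punit (coprime_of_prime hp hpN)
  refine heckeT_cov k hp hpN _ _ _ _ γ hγ ?_ ?_ ?_ ?_
  · intro γ' hγ' h
    rw [dia_spec d g hγ' (h.trans hd)]
  · intro γ' hγ' h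
    rw [dia_comm, dia_spec d _ hγ' (h.trans hd)]
  · intro γ' hγ' h
    rw [← dia_mul, dia_spec (d * punit N p) g hγ' (by rw [h, hd, Units.val_mul, hpu, mul_comm])]
  · intro γ' hγ' h
    obtain ⟨e, he⟩ := isUnit_lr hγ'
    have h1 : punit N p * e = d := by
      apply Units.ext
      rw [Units.val_mul, hpu, he, h, hd]
    rw [← dia_spec e _ hγ' he.symm, ← dia_mul, h1]

theorem exists_Tp {p : ℕ} (hp : p.Prime) (hpN : ¬ p ∣ N) :
    ∃ T : Sk N k →ₗ[ℂ] Sk N k, ∀ g : Sk N k,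
      ⇑(T g) = heckeU k p ⇑g + ⇑(dia N k (punit N p) g) ∣[k] heckeDiagMatrix p := by
  have key : ∀ g : Sk N k, ∃ h : Sk N k,
      ⇑h = heckeU k p ⇑g + ⇑(dia N k (punit N p) g) ∣[k] heckeDiagMatrix p := by
    intro g
    refine exists_cuspForm' N _ ?_ ?_ ?_
    · exact ((heckeU_isNice (isNice g) k p).add (slashD_isNice (isNice _) k p)).2.1
    · intro δ hδ
      obtain ⟨h0, h1⟩ := mem_Gamma1_iff.1 hδ
      rw [Tp_cov N k hp hpN g 1 h0 (by rw [h1, Units.val_one]), dia_one]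
    · intro c hc
      rw [slashD_eq_sub, sub_eq_add_neg]
      exact (CuspFormClass.isZeroAt_heckeU g p hc).add
        ((CuspFormClass.isZeroAt_heckeT _ p hc).add
          (isZeroAt_neg (CuspFormClass.isZeroAt_heckeU _ p hc)))
  choose T hT using key
  refine ⟨{ toFun := T, map_add' := ?_, map_smul' := ?_ }, hT⟩
  · intro g g'
    apply DFunLike.coe_injective
    rw [FunLike.coe_add, hT, hT, hT, map_add, FunLike.coe_add, FunLike.coe_add, heckeU_add,
      SlashAction.add_slash]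
    abel
  · intro c g
    apply DFunLike.coe_injective
    rw [RingHom.id_apply, FunLike.coe_smul, hT, hT, map_smul, FunLike.coe_smul, FunLike.coe_smul,
      heckeU_smul, ModularForm.smul_slash, σ_heckeDiagMatrix, smul_add]
    rfl

open Classical in
/-- the Hecke operator `T_p` (junk value `0` unless `p` is a prime not dividing `N`). -/
noncomputable def Tp (p : ℕ) : Sk N k →ₗ[ℂ] Sk N k :=
  if h : p.Prime ∧ ¬ p ∣ N then (exists_Tp N k h.1 h.2).choose else 0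

variable {N k}

theorem coe_Tp {p : ℕ} (hp : p.Prime) (hpN : ¬ p ∣ N) (g : Sk N k) :
    ⇑(Tp N k p g) = heckeU k p ⇑g + ⇑(dia N k (punit N p) g) ∣[k] heckeDiagMatrix p := by
  rw [Tp, dif_pos ⟨hp, hpN⟩]
  exact (exists_Tp N k hp hpN).choose_spec g

theorem qCoeff_Tp {p : ℕ} (hp : p.Prime) (hpN : ¬ p ∣ N) (g : Sk N k) (n : ℕ) :
    ModularFormClass.qCoeff (Tp N k p g) n = ModularFormClass.qCoeff g (n * p) +
      if p ∣ n then (p : ℂ) ^ (k - 1) * ModularFormClass.qCoeff (dia N k (punit N p) g) (n / p)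
      else 0 := by
  rw [coe_Tp hp hpN, qCoeff_add (heckeU_isNice (isNice g) k p) (slashD_isNice (isNice _) k p),
    qCoeff_heckeU (isNice g) k hp.ne_zero, qCoeff_slashD (isNice _) k hp.ne_zero]

theorem dia_Tp {p : ℕ} (hp : p.Prime) (hpN : ¬ p ∣ N) (d : (ZMod N)ˣ) (g : Sk N k) :
    dia N k d (Tp N k p g) = Tp N k p (dia N k d g) := by
  obtain ⟨γ, hγ, hd, -⟩ := exists_rep d 1 (Nat.coprime_one_left N)
  apply DFunLike.coe_injective
  rw [dia_spec d _ hγ hd, coe_Tp hp hpN, coe_Tp hp hpN, Tp_cov N k hp hpN g d hγ hd]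

theorem cc_Tp {p : ℕ} (hp : p.Prime) (hpN : ¬ p ∣ N) (g : Sk N k) (d : (ZMod N)ˣ) (n : ℕ) :
    cc N k (Tp N k p g) (d, n) = cc N k g (d, n * p) +
      if p ∣ n then (p : ℂ) ^ (k - 1) * cc N k g (d * punit N p, n / p) else 0 := by
  rw [cc_apply, dia_Tp hp hpN, qCoeff_Tp hp hpN, cc_apply, cc_apply, dia_mul]

end Fermat.Agent.S48.W1
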