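import Mathlib
import Fermat.Agent.S23.FixedField

/-!
# S48 / W1b / task W1-Aut : automorphisms of `ℂ` act transitively on the roots of an irreducible rational polynomial (Mathlib only, ~80 lines, TWIN)

TWIN of `Fermat.Agent.S23.exists_ringEquiv_ne_of_isAlgebraic` (`Fermat/Agent/S23/FixedField.lean`): there, ANY `σ₀ : Qb ≃ₐ[ℚ] Qb` (`Qb = algebraicClosure ℚ ℂ`) is extended to `σ : ℂ ≃+* ℂ` (transcendence basis + `IsAlgClosure.equivOfEquiv`) with `σ x = σ₀ x'`.
Here choose `σ₀` with `σ₀ x' = y'` : `y` is algebraic (root of `minpoly ℚ x ≠ 0`), `x', y' : Qb`; `minpoly.exists_algEquiv_of_root` (`Normal ℚ Qb`; `minpoly ℚ x' = minpoly ℚ x`: `minpoly.algebraMap_eq`/`minpoly.eq_of_algebraMap_eq`) or `IsGalois`-transitivity.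
-/

set_option autoImplicit false

namespace Fermat.Agent.S48.W1

open MvPolynomial in
theorem exists_aut {x y : ℂ} (hx : IsAlgebraic ℚ x)
    (hy : Polynomial.aeval y (minpoly ℚ x) = 0) : ∃ σ : ℂ ≃+* ℂ, σ x = y := by
  classical
  let Qb := algebraicClosure ℚ ℂ
  have : IsAlgClosure ℚ Qb := algebraicClosure.isAlgClosure ℚ ℂ
  have : IsGalois ℚ Qb := IsAlgClosure.isGalois ℚ Qb
  have : Normal ℚ Qb := IsAlgClosure.normal ℚ Qb
  have hyalg : IsAlgebraic ℚ y := ⟨minpoly ℚ x, minpoly.ne_zero hx.isIntegral, hy⟩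
  let x' : Qb := ⟨x, mem_algebraicClosure_iff.mpr hx⟩
  let y' : Qb := ⟨y, mem_algebraicClosure_iff.mpr hyalg⟩
  have hmp : minpoly ℚ x' = minpoly ℚ x :=
    (minpoly.algebraMap_eq (algebraMap Qb ℂ).injective x').symm
  have hmove : ∃ σ₀ : Qb ≃ₐ[ℚ] Qb, σ₀ x' = y' := by
    apply minpoly.exists_algEquiv_of_root' (Algebra.IsAlgebraic.isAlgebraic x')
    rw [hmp]
    apply (algebraMap Qb ℂ).injective
    rw [map_zero, ← Polynomial.aeval_algebraMap_apply]
    exact hy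
  obtain ⟨σ₀, hσ₀⟩ := hmove
  obtain ⟨ι, v, hv⟩ := exists_isTranscendenceBasis' Qb ℂ
  let _ := IsAlgClosed.isAlgClosure_of_transcendence_basis v hv
  let e : Algebra.adjoin Qb (Set.range v) ≃+* Algebra.adjoin Qb (Set.range v) :=
    hv.1.aevalEquiv.symm.toRingEquiv.trans
      ((MvPolynomial.mapEquiv ι σ₀.toRingEquiv).trans hv.1.aevalEquiv.toRingEquiv)
  refine ⟨IsAlgClosure.equivOfEquiv ℂ ℂ e, ?_⟩
  have h1 : x = algebraMap (Algebra.adjoin Qb (Set.range v)) ℂ
      (algebraMap Qb (Algebra.adjoin Qb (Set.range v)) x') := rfl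
  have h2 : e (algebraMap Qb (Algebra.adjoin Qb (Set.range v)) x') =
      algebraMap Qb (Algebra.adjoin Qb (Set.range v)) (σ₀ x') := by
    have h3 : hv.1.aevalEquiv.symm (algebraMap Qb (Algebra.adjoin Qb (Set.range v)) x') =
        C x' := by
      rw [AlgEquiv.symm_apply_eq]
      exact (AlgEquiv.commutes hv.1.aevalEquiv x').symm
    show hv.1.aevalEquiv ((MvPolynomial.mapEquiv ι σ₀.toRingEquiv)
      (hv.1.aevalEquiv.symm (algebraMap Qb (Algebra.adjoin Qb (Set.range v)) x'))) = _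
    rw [h3, MvPolynomial.mapEquiv_apply, MvPolynomial.map_C]
    exact AlgEquiv.commutes hv.1.aevalEquiv (σ₀ x')
  rw [h1, IsAlgClosure.equivOfEquiv_algebraMap, h2, hσ₀]
  rfl

end Fermat.Agent.S48.W1
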