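import Fermat.Agent.S48.W1.Defs

/-!
# S48 / W1a / task W1-Gam : elementary facts on `Γ₁(N) ⊴ Γ₀(N)` and the map `lr : Γ₀(N) → (ℤ/N)ˣ`
-/

set_option autoImplicit false

open UpperHalfPlane ModularForm CongruenceSubgroup
open scoped MatrixGroups Manifold

namespace Fermat.Agent.S48.W1

variable {N : ℕ}

theorem lr_one : lr N 1 = 1 := by
  simp [lr]

theorem lr_mul {γ γ' : SL(2, ℤ)} (hγ : γ ∈ Gamma0 N) : lr N (γ * γ') = lr N γ * lr N γ' := by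
  rw [Gamma0_mem] at hγ
  simp only [lr, Matrix.SpecialLinearGroup.coe_mul, Matrix.mul_apply, Fin.sum_univ_two]
  push_cast
  rw [hγ]
  ring

/-- `a d = 1` modulo `N`. -/
theorem ul_mul_lr {γ : SL(2, ℤ)} (hγ : γ ∈ Gamma0 N) : ((γ 0 0 : ℤ) : ZMod N) * lr N γ = 1 := by
  rw [Gamma0_mem] at hγ
  have h := γ.det_coe
  rw [Matrix.det_fin_two] at h
  have h2 := congrArg (Int.cast : ℤ → ZMod N) h
  push_cast at h2
  rw [hγ] at h2
  simpa [lr] using h2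

theorem isUnit_lr {γ : SL(2, ℤ)} (hγ : γ ∈ Gamma0 N) : IsUnit (lr N γ) :=
  IsUnit.of_mul_eq_one _ (by rw [mul_comm]; exact ul_mul_lr hγ)

theorem lr_inv {γ : SL(2, ℤ)} (hγ : γ ∈ Gamma0 N) : lr N γ⁻¹ * lr N γ = 1 := by
  rw [← lr_mul ((Gamma0 N).inv_mem hγ), inv_mul_cancel, lr_one]

theorem mem_Gamma1_iff {γ : SL(2, ℤ)} : γ ∈ Gamma1 N ↔ γ ∈ Gamma0 N ∧ lr N γ = 1 := by
  rw [Gamma1_mem]
  constructor
  · rintro ⟨_, h2, h3⟩
    exact ⟨Gamma0_mem.2 h3, h2⟩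
  · rintro ⟨h1, h2⟩
    have h3 := ul_mul_lr h1
    rw [h2, mul_one] at h3
    exact ⟨h3, h2, Gamma0_mem.1 h1⟩

theorem Gamma1_le_Gamma0 : Gamma1 N ≤ Gamma0 N := fun _ h => (mem_Gamma1_iff.1 h).1

/-- two elements of `Γ₀(N)` with the same lower right entry differ by an element of `Γ₁(N)`. -/
theorem mul_inv_mem_Gamma1 {γ γ' : SL(2, ℤ)} (hγ : γ ∈ Gamma0 N) (hγ' : γ' ∈ Gamma0 N)
    (h : lr N γ = lr N γ') : γ * γ'⁻¹ ∈ Gamma1 N := by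
  rw [mem_Gamma1_iff]
  refine ⟨(Gamma0 N).mul_mem hγ ((Gamma0 N).inv_mem hγ'), ?_⟩
  rw [lr_mul hγ, h, mul_comm, lr_inv hγ']

/-- `Γ₁(N)` is normalised by `Γ₀(N)`. -/
theorem conj_mem_Gamma1 {γ δ : SL(2, ℤ)} (hγ : γ ∈ Gamma0 N) (hδ : δ ∈ Gamma1 N) :
    γ * δ * γ⁻¹ ∈ Gamma1 N := by
  obtain ⟨h1, h2⟩ := mem_Gamma1_iff.1 hδ
  refine mul_inv_mem_Gamma1 ((Gamma0 N).mul_mem hγ h1) hγ ?_
  rw [lr_mul hγ, h2, mul_one]

theorem neg_one_mem_Gamma0 : (-1 : SL(2, ℤ)) ∈ Gamma0 N := by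
  rw [Gamma0_mem]
  simp

theorem lr_neg_one : lr N (-1) = -1 := by
  simp [lr]

/-- representatives: every unit `d` is the lower right entry of some `γ ∈ Γ₀(N)`, whose upper right entry may be taken divisible
by any given `m` prime to `N`. -/
theorem exists_rep [NeZero N] (d : (ZMod N)ˣ) (m : ℕ) (hm : Nat.Coprime m N) :
    ∃ γ ∈ Gamma0 N, lr N γ = d ∧ (m : ℤ) ∣ γ 0 1 := by
  have hd0 : Nat.Coprime (d : ZMod N).val N := ZMod.val_coe_unit_coprime d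
  obtain ⟨d₁, h1, h2⟩ := Nat.chineseRemainder hm.symm (d : ZMod N).val 1
  have hc1 : Nat.Coprime d₁ N := by
    have := h1.gcd_eq
    rw [Nat.Coprime, this]
    exact hd0
  have hc2 : Nat.Coprime d₁ m := by
    have := h2.gcd_eq
    rw [Nat.Coprime, this]
    simp
  have hc : IsCoprime (d₁ : ℤ) ((N * m : ℕ) : ℤ) :=
    Nat.isCoprime_iff_coprime.2 (Nat.Coprime.mul_right hc1 hc2)
  obtain ⟨a, t, hat⟩ := hc
  have hdet : (!![a, -(m * t); (N : ℤ), (d₁ : ℤ)] : Matrix (Fin 2) (Fin 2) ℤ).det = 1 := by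
    rw [Matrix.det_fin_two_of]
    push_cast at hat
    linarith
  let γ : SL(2, ℤ) := ⟨!![a, -(m * t); (N : ℤ), (d₁ : ℤ)], hdet⟩
  have h10 : γ 1 0 = (N : ℤ) := rfl
  have h11 : γ 1 1 = (d₁ : ℤ) := rfl
  have h01 : γ 0 1 = -(m * t) := rfl
  refine ⟨γ, ?_, ?_, ?_⟩
  · rw [Gamma0_mem, h10]
    simp
  · rw [lr, h11]
    have : ((d₁ : ℕ) : ZMod N) = ((d : ZMod N).val : ZMod N) :=
      (ZMod.natCast_eq_natCast_iff _ _ _).2 h1
    simpa using this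
  · rw [h01]
    exact ⟨-t, by ring⟩

end Fermat.Agent.S48.W1
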