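import Fermat.Agent.S48.W1.Conj.Mul
import Fermat.Agent.S48.W1.Eis.Main
import Fermat.Agent.S48.W1.Eis.Ser
import Fermat.Agent.S48.W1.Coeff
import Fermat.Agent.S23.Main

/-!
# S48 / W1b / task W1-Bdd : forms in `S₁(Γ₁(N))` with rational coefficients have bounded denominators  (~250 lines)

`S23.bddSpan : Submodule ℂ (PowerSeries ℂ)` = span of the series with bounded denominators (`S23/Basic.lean`; `S23.bddSpan_mul`, `S23.bddSpan_pow`, `S23.BddDen.mem_bddSpan`).
* `qExpansion_mem_bddSpan4`: `S23.hasIntegralStructure N 4 : span ℂ (CuspForm.intLattice N 4) = ⊤`, `intLattice = span ℤ {f | ∀ n, ∃ m : ℤ, qCoeff f n = m}`.  `Submodule.span_induction` twice (the map `F ↦ qExpansion 1 F` is additive and homogeneous: `S23.coeffMap N 4`, or `ModularForm.qExpansion_add/smul one_pos (one_mem_strictPeriods_Gamma0 N)`; it may be easier to show that `{F | qExpansion 1 F ∈ bddSpan}` is a `ℂ`-submodule containing the generators).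
* `exists_mult`: if `χ (-1) ≠ -1`: `comp χ g = 0` (`eq_zero_of_hasChar odd_one χ _ _ (hasChar_comp χ g)`), take `h = 1` (`S23.bddDen_one.mem_bddSpan`, `qExpansion_zero`).  Otherwise `χ⁻¹` is odd, `exists_eis N χ⁻¹` gives `H`, `exists_mul_eis N χ (comp χ g) (hasChar_comp χ g) H` gives `F` with `F = H * comp χ g`; `h = eisSer χ⁻¹` (`eisSer_mem_bddSpan`, `eisSer_ne_zero`);
  `qExpansion 1 F = qExpansion 1 H * qExpansion 1 (comp χ g)`: `S23.qHom` is multiplicative on `S23.niceSub` (as in `S23.main_bddDen_of_rat`), or `UpperHalfPlane.qExpansion_mul` with `S23.IsNice.analyticAt`.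
* `bddDen_of_rat`: choose `h χ` by `exists_mult`; `P = ∏ χ, h χ ≠ 0` (`Finset.prod_ne_zero_iff`), `∈ bddSpan` (induction with `bddSpan_mul`; `1 ∈ bddSpan`).  `qExpansion 1 g = ∑ χ, qExpansion 1 (comp χ g)` (`sum_comp`, linearity: `qcL`/`PowerSeries.ext`).
  `P * qExpansion 1 g = ∑ χ, (∏ χ' ∈ univ.erase χ, h χ') * (h χ * qExpansion 1 (comp χ g)) ∈ bddSpan` (`Finset.mul_prod_erase`).
  Integral equation: `exists_integral_equation1 N g` and `S23.levelOne_qExpansion_mem_bddSpan`, transported to power series exactly as in `S23.main_bddDen_of_rat` (`Fermat/Agent/S23/Main.lean`: blocks `hAN`, `E2`, `E2'`).  Conclude by `S23.bddDen_of_rat'`.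
-/

set_option autoImplicit false

open UpperHalfPlane ModularForm CongruenceSubgroup
open scoped MatrixGroups Manifold

namespace Fermat.Agent.S48.W1

variable (N : ℕ) [NeZero N]

/-- the `q`-expansion as a linear map (weight four, `Γ₀(N)`). -/
noncomputable def qL4 : CuspForm (Gamma0 N) 4 →ₗ[ℂ] PowerSeries ℂ where
  toFun f := qExpansion 1 f
  map_add' f g := by
    have := ModularForm.qExpansion_add one_pos (CongruenceSubgroup.one_mem_strictPeriods_Gamma0 N) f g
    simp only [FunLike.coe_add]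
    exact this
  map_smul' c f := by
    have := ModularForm.qExpansion_smul one_pos
      (CongruenceSubgroup.one_mem_strictPeriods_Gamma0 N) c f
    simp only [FunLike.coe_smul, RingHom.id_apply]
    exact this

theorem qExpansion_mem_bddSpan4 (F : CuspForm (Gamma0 N) 4) : qExpansion 1 F ∈ S23.bddSpan := by
  have h1 : (CuspForm.intLattice N 4 : Set (CuspForm (Gamma0 N) 4)) ⊆
      (S23.bddSpan.comap (qL4 N) : Submodule ℂ (CuspForm (Gamma0 N) 4)) := by
    have h2 : CuspForm.intLattice N 4 ≤ (S23.bddSpan.comap (qL4 N)).restrictScalars ℤ := by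
      rw [CuspForm.intLattice, Submodule.span_le]
      intro f hf
      have : S23.IsIntSeries (qExpansion 1 f) := hf
      exact this.bddDen.mem_bddSpan
    exact h2
  have h3 : (⊤ : Submodule ℂ (CuspForm (Gamma0 N) 4)) ≤ S23.bddSpan.comap (qL4 N) := by
    rw [← (S23.hasIntegralStructure N 4 : Submodule.span ℂ _ = ⊤), Submodule.span_le]
    exact h1
  exact h3 (Submodule.mem_top : F ∈ ⊤)

theorem exists_mult (χ : DirichletCharacter ℂ N) (g : Sk N 1) :
    ∃ h : PowerSeries ℂ, h ∈ S23.bddSpan ∧ h ≠ 0 ∧ h * qExpansion 1 (comp χ g) ∈ S23.bddSpan := by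
  by_cases hodd : χ (-1) = -1
  swap
  · have h0 : comp χ g = 0 := eq_zero_of_hasChar odd_one χ hodd _ (hasChar_comp χ g)
    refine ⟨1, S23.bddDen_one.mem_bddSpan, one_ne_zero, ?_⟩
    rw [h0, FunLike.coe_zero, qExpansion_zero, mul_zero]
    exact Submodule.zero_mem _
  have h1Γ := CongruenceSubgroup.one_mem_strictPeriods_Gamma0 N
  have h1G := one_mem_strictPeriods N
  have hψodd : χ⁻¹ (-1) = -1 := by
    rw [MulChar.inv_apply_eq_inv', hodd]
    norm_num
  obtain ⟨H, hHc, hHq⟩ := exists_eis N χ⁻¹ hψodd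
  obtain ⟨F, hF⟩ := exists_mul_eis N χ (comp χ g) (hasChar_comp χ g) H hHc
  refine ⟨eisSer χ⁻¹, eisSer_mem_bddSpan _, eisSer_ne_zero _, ?_⟩
  let gN : S23.niceSub := ⟨comp χ g, S23.isNice_of_modularFormClass h1G (comp χ g)⟩
  let HN : S23.niceSub := ⟨H, S23.isNice_of_modularFormClass h1G H⟩
  let FN : S23.niceSub := ⟨F, S23.isNice_of_modularFormClass h1Γ F⟩
  have E1 : HN * gN = FN := by
    apply Subtype.ext
    funext τ
    exact (hF τ).symm
  have E1' := congrArg S23.qHom E1
  rw [map_mul] at E1'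
  have e1 : S23.qHom HN = eisSer χ⁻¹ := hHq
  have e2 : S23.qHom gN = qExpansion 1 (comp χ g) := rfl
  rw [← e1, ← e2, E1']
  exact qExpansion_mem_bddSpan4 N F

theorem prod_mem_bddSpan {ι : Type*} (S : Finset ι) (h : ι → PowerSeries ℂ)
    (hh : ∀ i ∈ S, h i ∈ S23.bddSpan) : ∏ i ∈ S, h i ∈ S23.bddSpan := by
  classical
  induction S using Finset.induction_on with
  | empty => simpa using S23.bddDen_one.mem_bddSpan
  | insert i T hi ih =>
    rw [Finset.prod_insert hi]
    exact S23.bddSpan_mul (hh i (Finset.mem_insert_self _ _))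
      (ih fun j hj => hh j (Finset.mem_insert_of_mem hj))

theorem bddDen_of_rat (g : Sk N 1) (hg : S23.IsRatSeries (qExpansion 1 g)) :
    S23.BddDen (qExpansion 1 g) := by
  classical
  choose h hh1 hh2 hh3 using fun χ : DirichletCharacter ℂ N => exists_mult N χ g
  obtain ⟨n₁, a, hn₁, hA, hint⟩ := exists_integral_equation1 N g
  have h1G := one_mem_strictPeriods N
  have h1S := one_mem_strictPeriods_SL
  have hAN : ∀ i, ∃ x : S23.niceSub, i < n₁ → (x.1 = a i ∧ S23.qHom x ∈ S23.bddSpan) := by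
    intro i
    by_cases hi : i < n₁
    · obtain ⟨A, hAi⟩ := hA i hi
      exact ⟨⟨A, S23.isNice_of_modularFormClass h1S A⟩, fun _ => ⟨hAi,
        S23.levelOne_qExpansion_mem_bddSpan (ModularFormClass.modularForm A)⟩⟩
    · exact ⟨0, fun h => absurd h hi⟩
  choose aN haN using hAN
  let gN : S23.niceSub := ⟨g, S23.isNice_of_modularFormClass h1G g⟩
  have E2 : gN ^ n₁ + ∑ i ∈ Finset.range n₁, aN i * gN ^ i = 0 := by
    apply Subtype.ext
    funext τ
    have h0 := hint τ
    have h1 : ∑ i ∈ Finset.range n₁, a i τ * g τ ^ i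
        = ∑ i ∈ Finset.range n₁, (aN i).1 τ * g τ ^ i :=
      Finset.sum_congr rfl fun i hi => by rw [(haN i (Finset.mem_range.mp hi)).1]
    rw [h1] at h0
    simpa [gN] using h0
  have E2' := congrArg S23.qHom E2
  simp only [map_mul, map_sum, map_pow, map_add, map_zero] at E2'
  have hsum : qExpansion 1 g = ∑ χ : DirichletCharacter ℂ N, qExpansion 1 (comp χ g) := by
    ext n
    have h1 : qcL N 1 g n = qcL N 1 (∑ χ : DirichletCharacter ℂ N, comp χ g) n := by
      rw [sum_comp]
    rw [map_sum, Finset.sum_apply] at h1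
    rw [map_sum]
    exact h1
  refine S23.bddDen_of_rat' n₁ (S23.qHom gN) (∏ χ : DirichletCharacter ℂ N, h χ) _
    (fun i => S23.qHom (aN i)) hg (prod_mem_bddSpan _ _ fun χ _ => hh1 χ) ?_ ?_ rfl
    (fun i hi => (haN i hi).2) E2'
  · exact Finset.prod_ne_zero_iff.2 fun χ _ => hh2 χ
  · have e : S23.qHom gN = qExpansion 1 g := rfl
    rw [e, hsum, Finset.mul_sum]
    refine Submodule.sum_mem _ fun χ _ => ?_
    rw [← Finset.mul_prod_erase Finset.univ h (Finset.mem_univ χ), mul_right_comm]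
    exact S23.bddSpan_mul (hh3 χ) (prod_mem_bddSpan _ _ fun χ' _ => hh1 χ')

end Fermat.Agent.S48.W1
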