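import Fermat.Agent.S48.W1.Gam

/-!
# S48 / W1a / task W1-Dia : the diamond operators on `S_k(Γ₁(N))`  (~250 lines)

`dia N k d g = g ∣[k] γ` for ANY `γ ∈ Γ₀(N)` with lower right entry `≡ d`.

* `exists_dia`: fix `γ₀` by `exists_rep d 1`.  For `g : Sk N k` the function `F = g ∣[k] γ₀` gives an element of `Sk N k` by `exists_cuspForm`: `MDiff` by `(mdiff g).slash k _` (`MDifferentiable.slash`);
  for `δ ∈ Γ₁(N)`: `F ∣[k] δ = g ∣[k] (γ₀ δ) = g ∣[k] ((γ₀ δ γ₀⁻¹) γ₀) = F` (`SlashAction.slash_mul`, `conj_mem_Gamma1`, `slash_eq`);  `(F ∣[k] γ) = g ∣[k] (γ₀ γ)` is zero at `i∞` by `zero_at`.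
  Use `Classical.choose` on this to define the underlying function of `T`; linearity by `DFunLike.ext`/`DFunLike.coe_injective` + `SlashAction.add_slash`, `ModularForm.smul_slash` / `SL_smul_slash` (`FunLike.coe_add`, `FunLike.coe_smul` / `FunLike.coe_add`, as in `Fermat/Agent/S23/Main.lean`).
  Independence of `γ`: `g ∣[k] γ = g ∣[k] ((γ γ₀⁻¹) γ₀) = g ∣[k] γ₀` by `mul_inv_mem_Gamma1`.
  (The slash by `γ : SL(2,ℤ)` is by definition the slash by `mapGL ℝ γ`: `ModularForm.SL_slash`; `map_mul`.)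
* `dia_one`, `dia_mul`: `dia_spec` with `γ = 1`, `γ γ'` (`lr_one`, `lr_mul`), `DFunLike.coe_injective`.
* `dia_neg_one`: `γ = -1`; `(g ∣[k] (-1)) τ = (-1)^(-k) g τ` (`ModularForm.SL_slash_apply`, `denom`, `ModularGroup.SL_neg_smul` / `neg_smul`); `(-1)^(-k) = (-1)^k`.
* `hasChar_iff`: every `γ ∈ Γ₀(N)` has `lr N γ = ↑d` for the unit `d = (isUnit_lr hγ).unit`; conversely `exists_rep`.
* components: `DirichletCharacter.sum_char_inv_mul_char_eq ℂ (a := d) _ 1` (orthogonality: `∑ χ, χ d⁻¹ * χ 1 = if d = 1 then φ(N) else 0`), `Finset.sum_comm`;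
  `dia e (comp χ g) = χ e • comp χ g` by reindexing `d ↦ d e` (`Equiv.mulRight`, `Fintype.sum_equiv`), `χ (d e)⁻¹ χ e = χ d⁻¹`.
-/

set_option autoImplicit false

open UpperHalfPlane ModularForm CongruenceSubgroup
open scoped MatrixGroups Manifold

namespace Fermat.Agent.S48.W1

variable (N : ℕ) [NeZero N] (k : ℤ)

theorem exists_slash {N : ℕ} [NeZero N] {k : ℤ} (g : Sk N k) {γ₀ : SL(2, ℤ)}
    (h₀ : γ₀ ∈ Gamma0 N) : ∃ h : Sk N k, ⇑h = ⇑g ∣[k] γ₀ := by
  refine exists_cuspForm N _ ?_ ?_ ?_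
  · exact (mdiff g).slash k _
  · intro δ hδ
    rw [← SlashAction.slash_mul]
    have h1 : γ₀ * δ = (γ₀ * δ * γ₀⁻¹) * γ₀ := by group
    rw [h1, SlashAction.slash_mul, slash_eq g (conj_mem_Gamma1 h₀ hδ)]
  · intro γ
    rw [← SlashAction.slash_mul]
    exact zero_at g _

theorem slash_eq_of_lr {N : ℕ} {k : ℤ} (g : Sk N k) {γ γ₀ : SL(2, ℤ)} (hγ : γ ∈ Gamma0 N)
    (h₀ : γ₀ ∈ Gamma0 N) (h : lr N γ = lr N γ₀) : ⇑g ∣[k] γ = ⇑g ∣[k] γ₀ := by
  have h1 : γ = (γ * γ₀⁻¹) * γ₀ := by group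
  conv_lhs => rw [h1]
  rw [SlashAction.slash_mul, slash_eq g (mul_inv_mem_Gamma1 hγ h₀ h)]

theorem exists_dia (d : (ZMod N)ˣ) :
    ∃ T : Sk N k →ₗ[ℂ] Sk N k, ∀ (g : Sk N k) (γ : SL(2, ℤ)), γ ∈ Gamma0 N → lr N γ = d →
      ⇑(T g) = ⇑g ∣[k] γ := by
  obtain ⟨γ₀, h₀, hd, -⟩ := exists_rep d 1 (Nat.coprime_one_left N)
  choose T hT using fun g : Sk N k => exists_slash g h₀
  refine ⟨{ toFun := T, map_add' := ?_, map_smul' := ?_ }, ?_⟩
  · intro g g'
    apply DFunLike.coe_injective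
    rw [FunLike.coe_add, hT, hT, hT, FunLike.coe_add, SlashAction.add_slash]
  · intro c g
    apply DFunLike.coe_injective
    rw [RingHom.id_apply, FunLike.coe_smul, hT, hT, FunLike.coe_smul, SL_smul_slash]
  · intro g γ hγ h
    show ⇑(T g) = _
    rw [hT]
    exact (slash_eq_of_lr g hγ h₀ (h.trans hd.symm)).symm

/-- the diamond operator `⟨d⟩`. -/
noncomputable def dia (d : (ZMod N)ˣ) : Sk N k →ₗ[ℂ] Sk N k := (exists_dia N k d).choose

variable {N k}

theorem dia_spec (d : (ZMod N)ˣ) (g : Sk N k) {γ : SL(2, ℤ)} (hγ : γ ∈ Gamma0 N)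
    (h : lr N γ = d) : ⇑(dia N k d g) = ⇑g ∣[k] γ :=
  (exists_dia N k d).choose_spec g γ hγ h

theorem dia_one (g : Sk N k) : dia N k 1 g = g := by
  apply DFunLike.coe_injective
  rw [dia_spec 1 g (Subgroup.one_mem _) (by rw [lr_one, Units.val_one]), SlashAction.slash_one]

theorem dia_mul (d e : (ZMod N)ˣ) (g : Sk N k) : dia N k (d * e) g = dia N k e (dia N k d g) := by
  obtain ⟨γ, hγ, hd, -⟩ := exists_rep d 1 (Nat.coprime_one_left N)
  obtain ⟨γ', hγ', he, -⟩ := exists_rep e 1 (Nat.coprime_one_left N)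
  apply DFunLike.coe_injective
  rw [dia_spec (d * e) g ((Gamma0 N).mul_mem hγ hγ') (by rw [lr_mul hγ, hd, he, Units.val_mul]),
    dia_spec e _ hγ' he, dia_spec d g hγ hd, SlashAction.slash_mul]

theorem dia_comm (d e : (ZMod N)ˣ) (g : Sk N k) :
    dia N k d (dia N k e g) = dia N k e (dia N k d g) := by
  rw [← dia_mul, ← dia_mul, mul_comm]

theorem dia_injective (d : (ZMod N)ˣ) : Function.Injective (dia N k d) := by
  intro g g' h
  have := congrArg (dia N k d⁻¹) h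
  rwa [← dia_mul, ← dia_mul, mul_inv_cancel, dia_one, dia_one] at this

theorem dia_neg_one (g : Sk N k) : dia N k (-1) g = ((-1 : ℂ) ^ k) • g := by
  apply DFunLike.coe_injective
  rw [dia_spec (-1) g neg_one_mem_Gamma0 (by rw [lr_neg_one]; simp), FunLike.coe_smul]
  funext τ
  rw [SL_slash_apply, ModularGroup.SL_neg_smul, one_smul, Pi.smul_apply, smul_eq_mul, mul_comm]
  congr 1
  have h1 : denom ((-1 : SL(2, ℤ)) : GL (Fin 2) ℝ) τ = -1 := by
    simp [denom]
  rw [h1, zpow_neg, ← inv_zpow]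
  norm_num

theorem hasChar_iff (χ : DirichletCharacter ℂ N) (g : Sk N k) :
    HasChar N k χ g ↔ ∀ d : (ZMod N)ˣ, dia N k d g = χ d • g := by
  constructor
  · intro h d
    obtain ⟨γ, hγ, hd, -⟩ := exists_rep d 1 (Nat.coprime_one_left N)
    apply DFunLike.coe_injective
    rw [dia_spec d g hγ hd, h γ hγ, hd, FunLike.coe_smul]
  · intro h γ hγ
    have h1 := h (isUnit_lr hγ).unit
    rw [← dia_spec (isUnit_lr hγ).unit g hγ (IsUnit.unit_spec _).symm, h1, FunLike.coe_smul,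
      IsUnit.unit_spec]

/-- in odd weight there are no forms with even character. -/
theorem eq_zero_of_hasChar (hk : Odd k) (χ : DirichletCharacter ℂ N) (hχ : χ (-1) ≠ -1) (g : Sk N k)
    (hg : HasChar N k χ g) : g = 0 := by
  have h1 := (hasChar_iff χ g).1 hg (-1)
  rw [dia_neg_one, hk.neg_one_zpow] at h1
  have h2 : (χ (-1) + 1) • g = 0 := by
    rw [add_smul, one_smul]
    have : χ ((-1 : (ZMod N)ˣ) : ZMod N) = χ (-1) := by simp
    rw [this] at h1
    rw [← h1]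
    simp
  rcases smul_eq_zero.1 h2 with h | h
  · exact absurd (eq_neg_of_add_eq_zero_left h) hχ
  · exact h

/-- the `χ`-component. -/
noncomputable def comp (χ : DirichletCharacter ℂ N) (g : Sk N k) : Sk N k :=
  ((N.totient : ℂ)⁻¹) • ∑ d : (ZMod N)ˣ, (χ (d : ZMod N))⁻¹ • dia N k d g

theorem hasChar_comp (χ : DirichletCharacter ℂ N) (g : Sk N k) : HasChar N k χ (comp χ g) := by
  rw [hasChar_iff]
  intro e
  rw [comp, map_smul, map_sum, smul_comm]
  congr 1
  rw [Finset.smul_sum]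
  refine Fintype.sum_equiv (Equiv.mulRight e) _ _ fun d => ?_
  rw [map_smul, ← dia_mul, Equiv.coe_mulRight, smul_smul]
  congr 1
  have hne : χ (e : ZMod N) ≠ 0 := (e.isUnit.map χ).ne_zero
  have hne' : χ (d : ZMod N) ≠ 0 := (d.isUnit.map χ).ne_zero
  rw [Units.val_mul, map_mul]
  field_simp

theorem sum_comp (g : Sk N k) : ∑ χ : DirichletCharacter ℂ N, comp χ g = g := by
  simp only [comp]
  rw [← Finset.smul_sum, Finset.sum_comm]
  have h1 : ∀ d : (ZMod N)ˣ, ∑ χ : DirichletCharacter ℂ N, (χ (d : ZMod N))⁻¹ • dia N k d g =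
      (if d = 1 then (N.totient : ℂ) else 0) • dia N k d g := by
    intro d
    rw [← Finset.sum_smul]
    congr 1
    have h2 := DirichletCharacter.sum_char_inv_mul_char_eq ℂ (n := N) d.isUnit 1
    simp only [map_one, mul_one] at h2
    have h3 : ∀ χ : DirichletCharacter ℂ N, (χ (d : ZMod N))⁻¹ = χ ((d : ZMod N)⁻¹) := by
      intro χ
      have h4 : χ (d : ZMod N) * χ ((d : ZMod N)⁻¹) = 1 := by
        rw [← map_mul, ZMod.mul_inv_of_unit _ d.isUnit, map_one]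
      exact inv_eq_of_mul_eq_one_right h4
    simp only [h3, h2]
    congr 1
    exact propext ⟨fun h => Units.ext h, fun h => by rw [h, Units.val_one]⟩
  simp only [h1]
  rw [Finset.sum_eq_single 1 (fun d _ hd => by rw [if_neg hd, zero_smul])
    (fun h => absurd (Finset.mem_univ _) h), if_pos rfl, dia_one, smul_smul, inv_mul_cancel₀,
    one_smul]
  exact Nat.cast_ne_zero.2 (Nat.totient_pos.2 (NeZero.pos N)).ne'

theorem dia_eq_sum (d : (ZMod N)ˣ) (g : Sk N k) :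
    dia N k d g = ∑ χ : DirichletCharacter ℂ N, χ (d : ZMod N) • comp χ g := by
  conv_lhs => rw [← sum_comp g, map_sum]
  exact Finset.sum_congr rfl fun χ _ => (hasChar_iff χ _).1 (hasChar_comp χ g) d

end Fermat.Agent.S48.W1
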