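import Fermat.Agent.S48.Defs
import Fermat.Agent.S23.Nice
import Fermat.Prelude.Def_ModularForm_HeckeOperator

/-!
# S48, chapters W1a + W1b : basic definitions

* `Sk N k`        : cusp forms of weight `k` on `Γ₁(N)`;
* `lr N γ`        : the lower right entry of `γ` modulo `N`;
* `HasChar N k χ F` : `F ∣[k] γ = χ(d_γ) F` for all `γ ∈ Γ₀(N)`;
* `punit N p`     : the class of `p` in `(ℤ/N)ˣ` (junk value `1` if `p` is not prime to `N`);
* `exists_cuspForm` : construction of elements of `Sk N k` from analytic data.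
-/

set_option autoImplicit false

open UpperHalfPlane ModularForm CongruenceSubgroup
open scoped MatrixGroups Manifold

namespace Fermat.Agent.S48.W1

/-- cusp forms of weight `k` on `Γ₁(N)`. -/
abbrev Sk (N : ℕ) (k : ℤ) : Type := CuspForm (Gamma1 N) k

/-- the lower right entry modulo `N`. -/
def lr (N : ℕ) (γ : SL(2, ℤ)) : ZMod N := ((γ 1 1 : ℤ) : ZMod N)

/-- `F` transforms under `Γ₀(N)` with the character `χ` (weight `k`). -/
def HasChar (N : ℕ) (k : ℤ) (χ : DirichletCharacter ℂ N) (F : ℍ → ℂ) : Prop :=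
  ∀ γ ∈ Gamma0 N, F ∣[k] γ = χ (lr N γ) • F

/-- the class of `p` in `(ℤ/N)ˣ`. -/
noncomputable def punit (N p : ℕ) : (ZMod N)ˣ :=
  if h : Nat.Coprime p N then ZMod.unitOfCoprime p h else 1

theorem coe_punit {N p : ℕ} (h : Nat.Coprime p N) : ((punit N p : (ZMod N)ˣ) : ZMod N) = p := by
  rw [punit, dif_pos h, ZMod.coe_unitOfCoprime]

theorem coprime_of_prime {N p : ℕ} (hp : p.Prime) (hpN : ¬ p ∣ N) : Nat.Coprime p N :=
  (Nat.Prime.coprime_iff_not_dvd hp).2 hpN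

theorem one_mem_strictPeriods (N : ℕ) :
    (1 : ℝ) ∈ ((Gamma1 N : Subgroup SL(2, ℤ)) : Subgroup (GL (Fin 2) ℝ)).strictPeriods := by
  have hT : ModularGroup.T ∈ Gamma1 N := by
    rw [Gamma1_mem]
    simp [ModularGroup.T]
  rw [Subgroup.strictPeriods_eq_zmultiples_one_of_T_mem hT]
  exact AddSubgroup.mem_zmultiples (1 : ℝ)

/-- Build a cusp form on `Γ₁(N)` from analytic data. -/
theorem exists_cuspForm (N : ℕ) [NeZero N] {k : ℤ} (F : ℍ → ℂ) (hF : MDiff F)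
    (hinv : ∀ γ ∈ Gamma1 N, F ∣[k] γ = F)
    (hzero : ∀ γ : SL(2, ℤ), IsZeroAtImInfty (F ∣[k] γ)) :
    ∃ g : Sk N k, ⇑g = F := by
  refine ⟨{ toFun := F, slash_action_eq' := ?_, holo' := hF, zero_at_cusps' := ?_ }, rfl⟩
  · rintro _ ⟨γ, hγ, rfl⟩
    exact hinv γ hγ
  · intro c hc
    rw [Subgroup.IsArithmetic.isCusp_iff_isCusp_SL2Z] at hc
    rw [OnePoint.isZeroAt_iff_forall_SL2Z hc]
    intro γ _
    exact hzero γ

/-- the same with the cusp condition in Mathlib's form. -/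
theorem exists_cuspForm' (N : ℕ) {k : ℤ} (F : ℍ → ℂ) (hF : MDiff F)
    (hinv : ∀ γ ∈ Gamma1 N, F ∣[k] γ = F)
    (hzero : ∀ {c : OnePoint ℝ},
      IsCusp c ((Gamma1 N : Subgroup SL(2, ℤ)) : Subgroup (GL (Fin 2) ℝ)) → c.IsZeroAt F k) :
    ∃ g : Sk N k, ⇑g = F := by
  refine ⟨{ toFun := F, slash_action_eq' := ?_, holo' := hF, zero_at_cusps' := hzero }, rfl⟩
  rintro _ ⟨γ, hγ, rfl⟩
  exact hinv γ hγ

theorem slash_eq {N : ℕ} {k : ℤ} (g : Sk N k) {γ : SL(2, ℤ)} (hγ : γ ∈ Gamma1 N) :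
    ⇑g ∣[k] γ = ⇑g :=
  SlashInvariantFormClass.slash_action_eq g _ (Subgroup.mem_map_of_mem _ hγ)

theorem zero_at {N : ℕ} [NeZero N] {k : ℤ} (g : Sk N k) (γ : SL(2, ℤ)) :
    IsZeroAtImInfty (⇑g ∣[k] γ) :=
  CuspFormClass.zero_at_infty_slash g γ

theorem mdiff {N : ℕ} {k : ℤ} (g : Sk N k) : MDiff ⇑g := g.holo'

theorem isNice {N : ℕ} {k : ℤ} (g : Sk N k) : S23.IsNice ⇑g :=
  S23.isNice_of_modularFormClass (one_mem_strictPeriods N) g

end Fermat.Agent.S48.W1
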