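import Fermat.Agent.S48.W1.Gam
import Fermat.Prelude.Thm_ModularForm_heckeT_slash_eq_self_of_mem_Gamma0

/-!
# S48 / W1a / task W1-HeckeCov : covariance of `T_p` under `Γ₀(N)` with the lower right entries tracked  (~350 lines, TWIN)

This is a TWIN of the Prelude proof `Fermat/Prelude/Sol/S_ModularForm_heckeT_slash_eq_self_of_mem_Gamma0.lean` (read it first: sections `commutation`, `reindex`, `heckeT`).
Copy (into the namespace `Fermat.Agent.S48.W1.HeckeCov`, fresh names) the four lemmas `heckeMatrix_mul_of_eq`, `heckeMatrix_mul_of_eq'`, `heckeDiagMatrix_mul_of_eq`, `heckeDiagMatrix_mul_of_eq'` and ADD to each conclusion the value of `g' 1 1`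
(read off from the explicit matrix; `rfl`):
 1. `M_j g = g' M_j'`   : `g' = (g₀₀ + j g₁₀, e; p g₁₀, g₁₁ - g₁₀ j')`,  so `g' 1 1 ≡ g 1 1 (N)`          (`N ∣ g₁₀`);
 2. `M_j g = g' D`      : `g' = (e, g₀₁ + j g₁₁; g₁₀, p g₁₁)`,            so `g' 1 1 = p g 1 1`;
 3. `D g = g' M_j'`     : `g' = (p g₀₀, g₀₁ - g₀₀ j'; g₁₀, e)`, `g₁₁ = g₁₀ j' + p e`, so `p g' 1 1 ≡ g 1 1 (N)`;
 4. `D g = g' D`        : `g' = (g₀₀, p g₀₁; e, g₁₁)`,                    so `g' 1 1 = g 1 1`.
Then the twin of `heckeRep_mul` (you may CITE `heckeRep`, `redMatrix`, `heckeT_eq_sum_onePoint`, `heckeU_eq_sum_zmod`, … from the Prelude namespace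
`P2MW.S_ModularForm_heckeT_slash_eq_self_of_mem_Gamma0.ModularForm.HeckeSlashInvariance`, or copy them) returns in addition, with `w ∞ = p`, `w j = 1`:  `w x * lr N g' = w (redMatrix p g • x) * lr N g`.
Finally, with `Φ x = φ₁` if `x = ∞`, `φ₀` otherwise (same for `Ψ`):  `heckeU k p φ₀ + φ₁ ∣[k] D = ∑ x : OnePoint (ZMod p), Φ x ∣[k] heckeRep p x`, and
`(Φ x ∣[k] heckeRep p x) ∣[k] γ = (Φ x ∣[k] g') ∣[k] heckeRep p x' = Ψ x' ∣[k] heckeRep p x'` by the four hypotheses; reindex by `MulAction.toPerm (redMatrix p γ)`.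
-/

set_option autoImplicit false

open UpperHalfPlane ModularForm CongruenceSubgroup
open scoped MatrixGroups Manifold

namespace Fermat.Agent.S48.W1

namespace HeckeCov

open Matrix.SpecialLinearGroup
open P2MW.S_ModularForm_heckeT_slash_eq_self_of_mem_Gamma0.ModularForm.HeckeSlashInvariance
open scoped OnePoint

theorem mk_sl (a b c d : ℤ) (h : a * d - b * c = 1) :
    ∃ g' : SL(2, ℤ), g' 0 0 = a ∧ g' 0 1 = b ∧ g' 1 0 = c ∧ g' 1 1 = d :=
  ⟨⟨!![a, b; c, d], by rw [Matrix.det_fin_two_of]; exact h⟩, rfl, rfl, rfl, rfl⟩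

section commutation

variable {p : ℕ} (hp : p ≠ 0)
include hp

theorem mul_jj (g : SL(2, ℤ)) (j j' : ℕ) (e : ℤ)
    (he : g 0 1 + j * g 1 1 = j' * (g 0 0 + j * g 1 0) + p * e) :
    ∃ g' : SL(2, ℤ), g' 1 0 = p * g 1 0 ∧ g' 1 1 = g 1 1 - g 1 0 * j' ∧
      heckeMatrix p j * mapGL ℝ g = mapGL ℝ g' * heckeMatrix p j' := by
  have hdet := det_eq g
  obtain ⟨g', h00, h01, h10, h11⟩ := mk_sl (g 0 0 + j * g 1 0) (e) (p * g 1 0) (g 1 1 - g 1 0 * j')
    (by linear_combination hdet + (g 1 0) * he)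
  refine ⟨g', h10, h11, ?_⟩
  · ext i j
    fin_cases i <;> fin_cases j <;>
      simp [hp, Matrix.mul_apply, Fin.sum_univ_two, h00, h01, h10, h11]
    all_goals first
      | (have := congrArg (Int.cast : ℤ → ℝ) he; push_cast at this ⊢; linear_combination this)
      | (have := congrArg (Int.cast : ℤ → ℝ) he; push_cast at this ⊢; linear_combination -this)
      | ring1

theorem mul_jD (g : SL(2, ℤ)) (j : ℕ) (e : ℤ)
    (he : g 0 0 + j * g 1 0 = p * e) :
    ∃ g' : SL(2, ℤ), g' 1 0 = g 1 0 ∧ g' 1 1 = p * g 1 1 ∧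
      heckeMatrix p j * mapGL ℝ g = mapGL ℝ g' * heckeDiagMatrix p := by
  have hdet := det_eq g
  obtain ⟨g', h00, h01, h10, h11⟩ := mk_sl (e) (g 0 1 + j * g 1 1) (g 1 0) (p * g 1 1)
    (by linear_combination hdet - (g 1 1) * he)
  refine ⟨g', h10, h11, ?_⟩
  · ext i j
    fin_cases i <;> fin_cases j <;>
      simp [hp, Matrix.mul_apply, Fin.sum_univ_two, h00, h01, h10, h11]
    all_goals first
      | (have := congrArg (Int.cast : ℤ → ℝ) he; push_cast at this ⊢; linear_combination this)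
      | (have := congrArg (Int.cast : ℤ → ℝ) he; push_cast at this ⊢; linear_combination -this)
      | ring1

theorem mul_Dj (g : SL(2, ℤ)) (j' : ℕ) (e : ℤ)
    (he : g 1 1 = g 1 0 * j' + p * e) :
    ∃ g' : SL(2, ℤ), g' 1 0 = g 1 0 ∧ g' 1 1 = e ∧
      heckeDiagMatrix p * mapGL ℝ g = mapGL ℝ g' * heckeMatrix p j' := by
  have hdet := det_eq g
  obtain ⟨g', h00, h01, h10, h11⟩ := mk_sl (p * g 0 0) (g 0 1 - g 0 0 * j') (g 1 0) (e)
    (by linear_combination hdet - (g 0 0) * he)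
  refine ⟨g', h10, h11, ?_⟩
  · ext i j
    fin_cases i <;> fin_cases j <;>
      simp [hp, Matrix.mul_apply, Fin.sum_univ_two, h00, h01, h10, h11]
    all_goals first
      | (have := congrArg (Int.cast : ℤ → ℝ) he; push_cast at this ⊢; linear_combination this)
      | (have := congrArg (Int.cast : ℤ → ℝ) he; push_cast at this ⊢; linear_combination -this)
      | ring1

theorem mul_DD (g : SL(2, ℤ)) (e : ℤ) (he : g 1 0 = p * e) :
    ∃ g' : SL(2, ℤ), g' 1 0 = e ∧ g' 1 1 = g 1 1 ∧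
      heckeDiagMatrix p * mapGL ℝ g = mapGL ℝ g' * heckeDiagMatrix p := by
  have hdet := det_eq g
  obtain ⟨g', h00, h01, h10, h11⟩ := mk_sl (g 0 0) (p * g 0 1) (e) (g 1 1)
    (by linear_combination hdet + (g 0 1) * he)
  refine ⟨g', h10, h11, ?_⟩
  · ext i j
    fin_cases i <;> fin_cases j <;>
      simp [hp, Matrix.mul_apply, Fin.sum_univ_two, h00, h01, h10, h11]
    all_goals first
      | (have := congrArg (Int.cast : ℤ → ℝ) he; push_cast at this ⊢; linear_combination this)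
      | (have := congrArg (Int.cast : ℤ → ℝ) he; push_cast at this ⊢; linear_combination -this)
      | ring1

end commutation

/-- the weight: `p` at `∞`, `1` elsewhere. -/
def wt (N p : ℕ) (x : OnePoint (ZMod p)) : ZMod N := x.elim (p : ZMod N) (fun _ => 1)

theorem wt_infty (N p : ℕ) : wt N p ∞ = p := rfl

theorem wt_coe (N p : ℕ) (j : ZMod p) : wt N p (j : OnePoint (ZMod p)) = 1 := rfl

theorem rep_mul {p : ℕ} [Fact p.Prime] {N : ℕ} (hpN : ¬ p ∣ N) (g : SL(2, ℤ))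
    (hg : (N : ℤ) ∣ g 1 0) (x : OnePoint (ZMod p)) :
    ∃ g' : SL(2, ℤ), (N : ℤ) ∣ g' 1 0 ∧
      wt N p x * lr N g' = wt N p (redMatrix p g • x) * lr N g ∧
      heckeRep p x * mapGL ℝ g = mapGL ℝ g' * heckeRep p (redMatrix p g • x) := by
  have hp : p ≠ 0 := (Fact.out : p.Prime).ne_zero
  have hg0 : ((g 1 0 : ℤ) : ZMod N) = 0 := (ZMod.intCast_zmod_eq_zero_iff_dvd _ _).mpr hg
  induction x using OnePoint.rec with
  | infty =>
    rw [OnePoint.smul_infty_eq_ite]
    by_cases hc : ((g 1 0 : ℤ) : ZMod p) = 0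
    · rw [if_pos (by simpa using hc), heckeRep_infty]
      obtain ⟨e, he⟩ := (ZMod.intCast_zmod_eq_zero_iff_dvd _ _).mp hc
      obtain ⟨g', hg', hg'', hmul⟩ := mul_DD hp g e he
      refine ⟨g', ?_, ?_, hmul⟩
      · rw [hg']
        have hcop : IsCoprime (N : ℤ) (p : ℤ) :=
          Nat.isCoprime_iff_coprime.mpr ((Nat.Prime.coprime_iff_not_dvd Fact.out).mpr hpN).symm
        exact hcop.dvd_of_dvd_mul_left (he ▸ hg)
      · rw [lr, lr, hg'']
    · rw [if_neg (by simpa using hc), heckeRep_infty, heckeRep_coe]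
      set y : ZMod p := redMatrix p g 0 0 / redMatrix p g 1 0
        with hy
      obtain ⟨e, he⟩ : (p : ℤ) ∣ g 1 1 - g 1 0 * y.val := by
        rw [← ZMod.intCast_zmod_eq_zero_iff_dvd]
        push_cast
        rw [ZMod.natCast_zmod_val, hy, redMatrix_apply_zero_zero, redMatrix_apply_one_zero,
          mul_div_cancel₀ _ hc, sub_self]
      obtain ⟨g', hg', hg'', hmul⟩ := mul_Dj hp g y.val e (by linear_combination he)
      refine ⟨g', hg' ▸ hg, ?_, hmul⟩
      rw [wt_infty, wt_coe, lr, lr, hg'', one_mul]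
      have h1 := congrArg (Int.cast : ℤ → ZMod N) he
      push_cast at h1
      rw [hg0] at h1
      linear_combination -h1
  | coe j =>
    rw [OnePoint.smul_some_eq_ite]
    by_cases h : redMatrix p g 1 0 * j + redMatrix p g 1 1 = 0
    · rw [if_pos h, heckeRep_infty, heckeRep_coe]
      rw [redMatrix_apply_one_zero, redMatrix_apply_one_one] at h
      obtain ⟨e, he⟩ : (p : ℤ) ∣ g 0 0 + j.val * g 1 0 := by
        rw [← ZMod.intCast_zmod_eq_zero_iff_dvd]
        push_cast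
        rw [ZMod.natCast_zmod_val]
        linear_combination h
      obtain ⟨g', hg', hg'', hmul⟩ := mul_jD hp g j.val e he
      refine ⟨g', hg' ▸ hg, ?_, hmul⟩
      rw [wt_infty, wt_coe, lr, lr, hg'', one_mul]
      push_cast
      rfl
    · rw [if_neg h, heckeRep_coe, heckeRep_coe]
      set y : ZMod p := (redMatrix p g 0 0 * j + redMatrix p g 0 1) /
        (redMatrix p g 1 0 * j + redMatrix p g 1 1) with hy
      obtain ⟨e, he⟩ : (p : ℤ) ∣ g 0 1 + j.val * g 1 1 - y.val * (g 0 0 + j.val * g 1 0) := by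
        rw [← ZMod.intCast_zmod_eq_zero_iff_dvd]
        push_cast
        rw [ZMod.natCast_zmod_val, ZMod.natCast_zmod_val,
          show ((g 0 0 : ℤ) : ZMod p) + j * ((g 1 0 : ℤ) : ZMod p)
            = redMatrix p g 1 0 * j + redMatrix p g 1 1 by
              rw [redMatrix_apply_one_zero, redMatrix_apply_one_one]; ring,
          hy, div_mul_cancel₀ _ h, redMatrix_apply_zero_zero, redMatrix_apply_zero_one]
        ring
      obtain ⟨g', hg', hg'', hmul⟩ := mul_jj hp g j.val y.val e (by linear_combination he)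
      refine ⟨g', hg' ▸ dvd_mul_of_dvd_right hg _, ?_, hmul⟩
      rw [wt_coe, wt_coe, lr, lr, hg'', one_mul, one_mul]
      push_cast
      rw [hg0, zero_mul, sub_zero]

/-- the family `(φ₁ at ∞, φ₀ elsewhere)`. -/
def fam {p : ℕ} (φ₀ φ₁ : ℍ → ℂ) (x : OnePoint (ZMod p)) : ℍ → ℂ := x.elim φ₁ (fun _ => φ₀)

theorem sum_fam {p : ℕ} [NeZero p] (k : ℤ) (φ₀ φ₁ : ℍ → ℂ) :
    heckeU k p φ₀ + φ₁ ∣[k] heckeDiagMatrix p =
      ∑ x : OnePoint (ZMod p), fam φ₀ φ₁ x ∣[k] heckeRep p x := by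
  rw [heckeU_eq_sum_zmod, add_comm]
  exact (Fintype.sum_option (fun x : OnePoint (ZMod p) ↦ fam φ₀ φ₁ x ∣[k] heckeRep p x)).symm

end HeckeCov

open HeckeCov Matrix.SpecialLinearGroup
  P2MW.S_ModularForm_heckeT_slash_eq_self_of_mem_Gamma0.ModularForm.HeckeSlashInvariance in
theorem heckeT_cov {N : ℕ} (k : ℤ) {p : ℕ} (hp : p.Prime) (hpN : ¬ p ∣ N)
    (φ₀ φ₁ ψ₀ ψ₁ : ℍ → ℂ) (γ : SL(2, ℤ)) (hγ : γ ∈ Gamma0 N)
    (h00 : ∀ γ' ∈ Gamma0 N, lr N γ' = lr N γ → φ₀ ∣[k] γ' = ψ₀)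
    (h11 : ∀ γ' ∈ Gamma0 N, lr N γ' = lr N γ → φ₁ ∣[k] γ' = ψ₁)
    (h01 : ∀ γ' ∈ Gamma0 N, lr N γ' = (p : ZMod N) * lr N γ → φ₀ ∣[k] γ' = ψ₁)
    (h10 : ∀ γ' ∈ Gamma0 N, (p : ZMod N) * lr N γ' = lr N γ → φ₁ ∣[k] γ' = ψ₀) :
    (heckeU k p φ₀ + φ₁ ∣[k] heckeDiagMatrix p) ∣[k] γ =
      heckeU k p ψ₀ + ψ₁ ∣[k] heckeDiagMatrix p := by
  have : Fact p.Prime := ⟨hp⟩
  have : NeZero p := ⟨hp.ne_zero⟩
  have hcN : (N : ℤ) ∣ γ 1 0 :=
    (ZMod.intCast_zmod_eq_zero_iff_dvd _ _).mp (CongruenceSubgroup.Gamma0_mem.mp hγ)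
  have hunit : IsUnit (p : ZMod N) :=
    (ZMod.isUnit_iff_coprime p N).2 ((Nat.Prime.coprime_iff_not_dvd hp).2 hpN)
  rw [sum_fam, sum_fam, ModularForm.SL_slash, SlashAction.sum_slash]
  calc ∑ x : OnePoint (ZMod p), (fam φ₀ φ₁ x ∣[k] heckeRep p x) ∣[k] mapGL ℝ γ
      = ∑ x : OnePoint (ZMod p), fam ψ₀ ψ₁ (redMatrix p γ • x) ∣[k]
          heckeRep p (redMatrix p γ • x) := by
        refine Finset.sum_congr rfl fun x _ ↦ ?_
        obtain ⟨g', hg', hw, hmul⟩ := rep_mul hpN γ hcN x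
        have hg'N : g' ∈ CongruenceSubgroup.Gamma0 N :=
          CongruenceSubgroup.Gamma0_mem.mpr ((ZMod.intCast_zmod_eq_zero_iff_dvd _ _).mpr hg')
        rw [← SlashAction.slash_mul, hmul, SlashAction.slash_mul]
        congr 1
        change fam φ₀ φ₁ x ∣[k] g' = fam ψ₀ ψ₁ (redMatrix p γ • x)
        generalize redMatrix p γ • x = x' at hw
        induction x using OnePoint.rec with
        | infty =>
          induction x' using OnePoint.rec with
          | infty => exact h11 g' hg'N (hunit.mul_left_cancel hw)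
          | coe j' =>
            rw [wt_infty, wt_coe, one_mul] at hw
            exact h10 g' hg'N hw
        | coe j =>
          induction x' using OnePoint.rec with
          | infty =>
            rw [wt_infty, wt_coe, one_mul] at hw
            exact h01 g' hg'N hw
          | coe j' =>
            rw [wt_coe, wt_coe, one_mul, one_mul] at hw
            exact h00 g' hg'N hw
    _ = ∑ x : OnePoint (ZMod p), fam ψ₀ ψ₁ x ∣[k] heckeRep p x :=
        Equiv.sum_comp (MulAction.toPerm (redMatrix p γ))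
          (fun x ↦ fam ψ₀ ψ₁ x ∣[k] heckeRep p x)

end Fermat.Agent.S48.W1
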