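import Fermat.Agent.S48.W1.Lvl

/-!
# S48 / W1a / task W1-Neb : the nebentypus of `f` is `ε`  (~200 lines)

`hf : IsEigen N ε f` : `a_1 = 1`, `a_{pn} + ε(p) [p ∣ n] a_{n/p} = a_p a_n` for all primes `p ∤ N`.

1. `formal_rel` : as FUNCTIONS `heckeU 1 p f + ε(p) • (f ∣[1] D) = a_p • f`: `eq_of_qCoeff` (all three are nice: `heckeU_isNice`, `slashD_isNice`, `isNice f`, `S23.niceSub` is a subalgebra / `S23.IsNice.add`, `S23.IsNice.mul` with `S23.isNice_const`);
   coefficients by `qCoeff_add`, `qCoeff_smul`, `qCoeff_heckeU`, `qCoeff_slashD` (`(p:ℂ)^((1:ℤ)-1) = 1`), `hf.rel p hp hpN n` (`mul_comm n p`).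
2. `dia_prime` : `h = dia (punit N p) f - ε(p) • f`, `g = Tp N 1 p f - a_p • f`.  By `coe_Tp` and 1.: `⇑g = ⇑h ∣[1] D` (`SlashAction.add_slash`/`sub`, `ModularForm.smul_slash` + `σ_heckeDiagMatrix`).  `lvl` gives `h = 0`.
3. `neb` : Dirichlet: `Nat.forall_exists_prime_gt_and_eq_mod (ha : IsUnit (d : ZMod N)) N` gives a prime `p > N` with `(p : ZMod N) = d`; `p ∤ N` (`Nat.le_of_dvd`, `NeZero.pos N`); `punit N p = d` (`Units.ext`, `coe_punit`).
4. `Tp_eigen` : `DFunLike.coe_injective`, `coe_Tp`, `dia_prime`, 1.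
5. `eps_neg_one` : `dia_neg_one` (`k = 1`: `(-1)^1 = -1`), `neb (-1)`: `(ε(-1) + 1) • f = 0`, `f ≠ 0` because `a_1(f) = 1` (`qCoeff` of `0` is `0`: `map_zero (qcL N 1)`).
-/

set_option autoImplicit false

open UpperHalfPlane ModularForm CongruenceSubgroup
open scoped MatrixGroups Manifold

namespace Fermat.Agent.S48.W1

variable {N : ℕ} [NeZero N] {ε : DirichletCharacter ℂ N} {f : CuspForm (Gamma1 N) 1}

theorem ne_zero_of_isEigen (hf : IsEigen N ε f) : f ≠ 0 := by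
  rintro rfl
  have h1 := hf.one
  have h2 : qcL N 1 (0 : Sk N 1) 1 = 0 := by rw [map_zero]; rfl
  rw [qcL_apply] at h2
  rw [h2] at h1
  exact zero_ne_one h1

theorem neb_isNice_smul {F : ℍ → ℂ} (hF : S23.IsNice F) (c : ℂ) : S23.IsNice (c • F) :=
  S23.niceSub.smul_mem (S23.mem_niceSub.2 hF) c

theorem formal_rel (hf : IsEigen N ε f) {p : ℕ} (hp : p.Prime) (hpN : ¬ p ∣ N) :
    heckeU 1 p ⇑f + ε (p : ZMod N) • (⇑f ∣[(1 : ℤ)] heckeDiagMatrix p) =
      ModularFormClass.qCoeff f p • ⇑f := by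
  have h1 := heckeU_isNice (isNice f) 1 p
  have h2 := slashD_isNice (isNice f) 1 p
  apply eq_of_qCoeff (h1.add (neb_isNice_smul h2 _)) (neb_isNice_smul (isNice f) _)
  intro n
  rw [qCoeff_add h1 (neb_isNice_smul h2 _), qCoeff_smul h2, qCoeff_smul (isNice f),
    qCoeff_heckeU (isNice f) 1 hp.ne_zero, qCoeff_slashD (isNice f) 1 hp.ne_zero, mul_comm n p,
    ← hf.rel p hp hpN n]
  simp

theorem neb_smul_slashD (c : ℂ) (F : ℍ → ℂ) (p : ℕ) :
    (c • F) ∣[(1 : ℤ)] heckeDiagMatrix p = c • (F ∣[(1 : ℤ)] heckeDiagMatrix p) := by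
  rw [ModularForm.smul_slash, σ_heckeDiagMatrix, ContinuousAlgEquiv.refl_apply]

theorem dia_prime (hf : IsEigen N ε f) {p : ℕ} (hp : p.Prime) (hpN : ¬ p ∣ N) :
    dia N 1 (punit N p) f = ε (p : ZMod N) • f := by
  have h := lvl hp hpN (dia N 1 (punit N p) f - ε (p : ZMod N) • f)
    (Tp N 1 p f - ModularFormClass.qCoeff f p • f) ?_
  · exact sub_eq_zero.1 h
  · have h1 : ⇑(Tp N 1 p f - ModularFormClass.qCoeff f p • f) =
        ⇑(Tp N 1 p f) - ModularFormClass.qCoeff f p • ⇑f := rfl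
    have h2 : ⇑(dia N 1 (punit N p) f - ε (p : ZMod N) • f) =
        ⇑(dia N 1 (punit N p) f) + (-ε (p : ZMod N)) • ⇑f := by
      funext z
      simp [sub_eq_add_neg]
    rw [h1, h2, coe_Tp hp hpN, ← formal_rel hf hp hpN, SlashAction.add_slash, neb_smul_slashD]
    funext z
    simp only [Pi.add_apply, Pi.sub_apply, Pi.smul_apply, smul_eq_mul]
    ring

/-- **Nebentypus.** -/
theorem neb (hf : IsEigen N ε f) (d : (ZMod N)ˣ) : dia N 1 d f = ε (d : ZMod N) • f := by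
  obtain ⟨p, hpN, hp, hpd⟩ := Nat.forall_exists_prime_gt_and_eq_mod d.isUnit N
  have hpN' : ¬ p ∣ N := fun h => absurd (Nat.le_of_dvd (NeZero.pos N) h) (not_le.2 hpN)
  have h1 : punit N p = d := Units.ext (by rw [coe_punit (coprime_of_prime hp hpN'), hpd])
  rw [← h1, dia_prime hf hp hpN', coe_punit (coprime_of_prime hp hpN')]

theorem hasChar_of_isEigen (hf : IsEigen N ε f) : HasChar N 1 ε f :=
  (hasChar_iff ε f).2 (neb hf)

theorem Tp_eigen (hf : IsEigen N ε f) {p : ℕ} (hp : p.Prime) (hpN : ¬ p ∣ N) :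
    Tp N 1 p f = ModularFormClass.qCoeff f p • f := by
  apply DFunLike.coe_injective
  have h1 : ⇑(ModularFormClass.qCoeff f p • f) = ModularFormClass.qCoeff f p • ⇑f := rfl
  have h2 : ⇑(ε (p : ZMod N) • f) = ε (p : ZMod N) • ⇑f := rfl
  rw [coe_Tp hp hpN, dia_prime hf hp hpN, h1, h2, neb_smul_slashD, formal_rel hf hp hpN]

theorem eps_neg_one (hf : IsEigen N ε f) : ε (-1) = -1 := by
  have h1 := neb hf (-1)
  rw [dia_neg_one] at h1
  have h2 : (ε (-1) + 1) • f = 0 := by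
    have h3 : ((-1 : (ZMod N)ˣ) : ZMod N) = -1 := by simp
    rw [h3] at h1
    rw [add_smul, ← h1]
    simp
  rcases smul_eq_zero.1 h2 with h | h
  · exact eq_neg_of_add_eq_zero_left h
  · exact absurd h (ne_zero_of_isEigen hf)

end Fermat.Agent.S48.W1
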