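import Fermat.Agent.S48.W1.Bdd
import Fermat.Agent.S48.W1.Conj.Full
import Fermat.Agent.S48.W1.Neb
import Fermat.Agent.S48.W1.Abs.Span
import Fermat.Agent.S48.W1.Abs.Int

/-!
# S48 / W1b : the integral lattice in `S₁(Γ₁(N))`; integrality of the eigenvalues

`Λ = Abs.lat (cc N 1) = {g : a_n(⟨d⟩ g) ∈ ℤ for all d, n}` spans `S₁(Γ₁(N))` and is stable under the `T_p`.
-/

set_option autoImplicit false

open UpperHalfPlane ModularForm CongruenceSubgroup
open scoped MatrixGroups Manifold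

namespace Fermat.Agent.S48.W1

variable (N : ℕ) [NeZero N]

theorem cc_bdd (g : Sk N 1) (h : ∀ i, ∃ r : ℚ, cc N 1 g i = (r : ℂ)) :
    ∃ D : ℕ, D ≠ 0 ∧ ∀ i, ∃ m : ℤ, (D : ℂ) * cc N 1 g i = m := by
  have h1 : ∀ d : (ZMod N)ˣ, S23.BddDen (qExpansion 1 (dia N 1 d g)) :=
    fun d => bddDen_of_rat N _ fun n => h (d, n)
  choose D hD hDm using h1
  refine ⟨∏ d, D d, Finset.prod_ne_zero_iff.2 fun d _ => hD d, ?_⟩
  rintro ⟨d, n⟩
  obtain ⟨m, hm⟩ := hDm d n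
  refine ⟨(∏ e ∈ Finset.univ.erase d, (D e : ℤ)) * m, ?_⟩
  rw [← Finset.mul_prod_erase Finset.univ D (Finset.mem_univ d)]
  have : cc N 1 g (d, n) = (qExpansion 1 (dia N 1 d g)).coeff n := rfl
  rw [this]
  push_cast
  rw [← hm]
  ring

theorem span_lat : Submodule.span ℂ (Abs.lat (cc N 1) : Set (Sk N 1)) = ⊤ := by
  have := finiteDimensional N 1
  refine Abs.span_lat_eq_top (cc_injective N 1) ?_ (cc_bdd N)
  intro σ g
  obtain ⟨g', h⟩ := exists_conj N σ.toRingHom g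
  exact ⟨g', fun i => h i.1 i.2⟩

theorem Tp_mem_lat (p : ℕ) (g : Sk N 1) (hg : g ∈ Abs.lat (cc N 1)) :
    Tp N 1 p g ∈ Abs.lat (cc N 1) := by
  by_cases h : p.Prime ∧ ¬ p ∣ N
  · rintro ⟨d, n⟩
    rw [cc_Tp h.1 h.2]
    obtain ⟨m, hm⟩ := hg (d, n * p)
    obtain ⟨m', hm'⟩ := hg (d * punit N p, n / p)
    rw [hm, hm', sub_self, zpow_zero, one_mul]
    split_ifs
    · exact ⟨m + m', by push_cast; rfl⟩
    · exact ⟨m, by rw [add_zero]⟩
  · rw [Tp, dif_neg h]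
    exact Submodule.zero_mem _

variable {N} {ε : DirichletCharacter ℂ N} {f : CuspForm (Gamma1 N) 1}

/-- **Integrality of the eigenvalues.** -/
theorem isIntegral_coeff' (hf : IsEigen N ε f) {p : ℕ} (hp : p.Prime) (hpN : ¬ p ∣ N) :
    IsIntegral ℤ (ModularFormClass.qCoeff f p) := by
  have := finiteDimensional N 1
  exact Abs.isIntegral_of_eigen (cc_injective N 1) (span_lat N) (Tp N 1 p) (Tp_mem_lat N p)
    (ne_zero_of_isEigen hf) (Tp_eigen hf hp hpN)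

end Fermat.Agent.S48.W1
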