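import Fermat.Agent.S48.W1.Hecke

/-!
# S48 / W1a / task W1-Lvl : if `h` and `V_p h` are both of level `N` (`p ∤ N`) then `h = 0`  (~250 lines)

Weight one: `(h ∣[1] heckeDiagMatrix p)(z) = h(p z)`, `a_n(h ∣[1] D) = a_{n/p}(h)` (`qCoeff_slashD`, `(p:ℂ)^(1-1) = 1`).

`A = {h : Sk N 1 | ∃ g : Sk N 1, ⇑g = ⇑h ∣[1] D}` is a `ℂ`-subspace of the finite dimensional space `Sk N 1` (`finiteDimensional N 1`).
1. `dia_mem` : `A` is stable under all `⟨d⟩`, and `⟨d⟩ g` is the witness for `⟨d⟩ h`.  Take `γ = (a, b; c, d') ∈ Γ₀(N)` with `lr N γ = d`, `p ∣ b` (`exists_rep d p`), `b = p b'`, and `γ'' = (a, b'; p c, d')` (determinant `a d' - b' p c = 1`; `γ'' ∈ Γ₀(N)`, `lr N γ'' = d`).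
   Matrix identity in `GL (Fin 2) ℝ`: `mapGL ℝ γ * heckeDiagMatrix p = heckeDiagMatrix p * mapGL ℝ γ''` (`ext i j; fin_cases i <;> fin_cases j <;> simp [Matrix.mul_apply, Fin.sum_univ_two, val_heckeDiagMatrix hp.ne_zero]`, as in the Prelude file `Sol/S_ModularForm_heckeT_slash_eq_self_of_mem_Gamma0.lean`).
   So `(h ∣[1] γ) ∣[1] D = (h ∣[1] D) ∣[1] γ'' = g ∣[1] γ''` (`SlashAction.slash_mul`), i.e. `⇑(dia d h) ∣[1] D = ⇑(dia d g)` (`dia_spec`).
2. `V_mem` : if `h ∈ A` with witness `g` then `g ∈ A`.  `coe_Tp`: `⇑(Tp g) = heckeU 1 p g + ⇑(dia p g) ∣[1] D`; `heckeU 1 p (h ∣[1] D) = h` (`eq_of_qCoeff`, `qCoeff_heckeU`, `qCoeff_slashD`, `Nat.mul_div_cancel`).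
   So `⇑(dia p g) ∣[1] D = ⇑(Tp g - h)`: `dia p g ∈ A`; by 1. applied to `d = (punit N p)⁻¹`: `g ∈ A`.
3. `V : A →ₗ[ℂ] A`, `h ↦ g` (the witness is unique: `DFunLike.coe_injective`; use `Classical.choose`, linearity by `DFunLike.coe_injective` + `SlashAction.add_slash`, `ModularForm.smul_slash`, `σ_heckeDiagMatrix`); injective: `a_n(h) = a_{np}(g)`, `qcL_injective`.
   `LinearMap.injective_iff_surjective` (finite dimension): `V` is surjective.
4. By induction on `m`: for all `h ∈ A` and `n` with `¬ p^m ∣ n`: `a_n(h) = 0` (`h = V h'`, `a_n(V h') = if p ∣ n then a_{n/p}(h') else 0`).  For `n ≥ 1`: `¬ p^n ∣ n` (`Nat.lt_pow_self`, `Nat.le_of_dvd`); `a_0(h) = 0` (`qCoeff_zero`).  `qcL_injective`.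
-/

set_option autoImplicit false
set_option linter.unusedSectionVars false

open UpperHalfPlane ModularForm CongruenceSubgroup
open scoped MatrixGroups Manifold

namespace Fermat.Agent.S48.W1

variable {N : ℕ} [NeZero N]

/-- `V_p` commutes with the diamond operators. -/
theorem dia_slashD {p : ℕ} (hp : p.Prime) (hpN : ¬ p ∣ N) (h g : Sk N 1)
    (hg : ⇑g = ⇑h ∣[(1 : ℤ)] heckeDiagMatrix p) (d : (ZMod N)ˣ) :
    ⇑(dia N 1 d g) = ⇑(dia N 1 d h) ∣[(1 : ℤ)] heckeDiagMatrix p := by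
  obtain ⟨γ, hγ, hlr, b', hb'⟩ := exists_rep d p (coprime_of_prime hp hpN)
  have hdet := γ.det_coe
  rw [Matrix.det_fin_two] at hdet
  let γ'' : SL(2, ℤ) := ⟨!![γ 0 0, b'; (p : ℤ) * γ 1 0, γ 1 1], by
    rw [Matrix.det_fin_two_of]
    rw [hb'] at hdet
    linear_combination hdet⟩
  have h10 : γ'' 1 0 = (p : ℤ) * γ 1 0 := rfl
  have h11 : γ'' 1 1 = γ 1 1 := rfl
  have h00 : γ'' 0 0 = γ 0 0 := rfl
  have h01 : γ'' 0 1 = b' := rfl
  have hγ'' : γ'' ∈ Gamma0 N := by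
    rw [Gamma0_mem, h10]
    push_cast
    rw [Gamma0_mem.mp hγ, mul_zero]
  have hlr'' : lr N γ'' = d := by
    rw [← hlr]
    rfl
  have hmat : Matrix.SpecialLinearGroup.mapGL ℝ γ * heckeDiagMatrix p =
      heckeDiagMatrix p * Matrix.SpecialLinearGroup.mapGL ℝ γ'' := by
    apply Units.ext
    rw [Units.val_mul, Units.val_mul, val_heckeDiagMatrix hp.ne_zero]
    ext i j
    fin_cases i <;> fin_cases j <;>
      simp [Matrix.mul_apply, Fin.sum_univ_two, h00, h01, h10, h11, hb'] <;> ring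
  rw [dia_spec d g hγ'' hlr'', dia_spec d h hγ hlr, hg, ModularForm.SL_slash, ModularForm.SL_slash,
    ← SlashAction.slash_mul, ← SlashAction.slash_mul]
  exact congrArg (fun M => ⇑h ∣[(1 : ℤ)] M) hmat.symm

/-- `U_p V_p = 1` in weight one. -/
theorem heckeU_slashD {F : ℍ → ℂ} (hF : S23.IsNice F) {p : ℕ} (hp : p ≠ 0) :
    heckeU 1 p (F ∣[(1 : ℤ)] heckeDiagMatrix p) = F := by
  refine eq_of_qCoeff (heckeU_isNice (slashD_isNice hF 1 p) 1 p) hF fun n => ?_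
  rw [qCoeff_heckeU (slashD_isNice hF 1 p) 1 hp, qCoeff_slashD hF 1 hp,
    if_pos (Dvd.intro_left n rfl), Nat.mul_div_cancel _ (Nat.pos_of_ne_zero hp)]
  simp

/-- the operator `V_p` on sequences. -/
def lvlV (p : ℕ) : (ℕ → ℂ) →ₗ[ℂ] (ℕ → ℂ) where
  toFun a n := if p ∣ n then a (n / p) else 0
  map_add' a b := by
    funext n
    by_cases h : p ∣ n <;> simp [h]
  map_smul' c a := by
    funext n
    by_cases h : p ∣ n <;> simp [h]

theorem lvlV_apply (p : ℕ) (a : ℕ → ℂ) (n : ℕ) :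
    lvlV p a n = if p ∣ n then a (n / p) else 0 := rfl

theorem qcL_eq_lvlV_iff {p : ℕ} (hp : p ≠ 0) (h g : Sk N 1) :
    qcL N 1 g = lvlV p (qcL N 1 h) ↔ ⇑g = ⇑h ∣[(1 : ℤ)] heckeDiagMatrix p := by
  have key : ∀ n, ModularFormClass.qCoeff (⇑h ∣[(1 : ℤ)] heckeDiagMatrix p) n =
      lvlV p (qcL N 1 h) n := by
    intro n
    rw [qCoeff_slashD (isNice h) 1 hp, lvlV_apply]
    simp [qcL_apply]
  constructor
  · intro e
    refine eq_of_qCoeff (isNice g) (slashD_isNice (isNice h) 1 p) fun n => ?_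
    rw [key, ← e, qcL_apply]
  · intro e
    funext n
    rw [← key, ← e, qcL_apply]

theorem lvl {p : ℕ} (hp : p.Prime) (hpN : ¬ p ∣ N) (h g : Sk N 1)
    (hg : ⇑g = ⇑h ∣[(1 : ℤ)] heckeDiagMatrix p) : h = 0 := by
  have hp0 : p ≠ 0 := hp.ne_zero
  have hfd : FiniteDimensional ℂ (Sk N 1) := finiteDimensional N 1
  let X : Submodule ℂ (ℕ → ℂ) := LinearMap.range (qcL N 1)
  let A : Submodule ℂ (ℕ → ℂ) := X ⊓ X.comap (lvlV p)
  have hAfd : FiniteDimensional ℂ A :=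
    Submodule.finiteDimensional_of_le (inf_le_left : A ≤ X)
  -- stability
  have hstab : ∀ a ∈ A, lvlV p a ∈ A := by
    rintro a ⟨⟨h1, rfl⟩, ⟨g1, hg1⟩⟩
    refine ⟨⟨g1, hg1⟩, ?_⟩
    have e1 : ⇑g1 = ⇑h1 ∣[(1 : ℤ)] heckeDiagMatrix p := (qcL_eq_lvlV_iff hp0 h1 g1).1 hg1
    have e2 : ⇑(Tp N 1 p g1 - h1) =
        ⇑(dia N 1 (punit N p) g1) ∣[(1 : ℤ)] heckeDiagMatrix p := by
      have := coe_Tp hp hpN g1
      rw [e1, heckeU_slashD (isNice h1) hp0] at this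
      rw [FunLike.coe_sub, this]
      simp
    have e3 := dia_slashD hp hpN _ _ e2 (punit N p)⁻¹
    rw [← dia_mul, mul_inv_cancel, dia_one] at e3
    exact ⟨_, ((qcL_eq_lvlV_iff hp0 g1 _).2 e3).trans (by rw [hg1])⟩
  let V : A →ₗ[ℂ] A := (lvlV p).restrict hstab
  have hVinj : Function.Injective V := by
    rw [injective_iff_map_eq_zero]
    intro a ha
    apply Subtype.ext
    funext n
    have h1 : lvlV p (a : ℕ → ℂ) (n * p) = 0 := by
      have := congrArg (fun x : A => (x : ℕ → ℂ) (n * p)) ha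
      simpa [V, LinearMap.restrict_apply] using this
    rw [lvlV_apply, if_pos (Dvd.intro_left n rfl), Nat.mul_div_cancel _ hp.pos] at h1
    exact h1
  have hVsurj : Function.Surjective V := LinearMap.injective_iff_surjective.mp hVinj
  have hind : ∀ m : ℕ, ∀ a : A, ∀ n : ℕ, ¬ p ^ m ∣ n → (a : ℕ → ℂ) n = 0 := by
    intro m
    induction m with
    | zero => intro a n hn; exact absurd (by simp) hn
    | succ m ih =>
      intro a n hn
      obtain ⟨a', rfl⟩ := hVsurj a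
      change lvlV p (a' : ℕ → ℂ) n = 0
      rw [lvlV_apply]
      split_ifs with hpn
      · obtain ⟨n', rfl⟩ := hpn
        rw [Nat.mul_div_cancel_left _ hp.pos]
        apply ih
        intro hd
        apply hn
        rw [pow_succ, mul_comm]
        exact Nat.mul_dvd_mul_left p hd
      · rfl
  have hmem : qcL N 1 h ∈ A := ⟨⟨h, rfl⟩, ⟨g, (qcL_eq_lvlV_iff hp0 h g).2 hg⟩⟩
  apply qcL_injective N 1
  rw [map_zero]
  funext n
  rcases Nat.eq_zero_or_pos n with rfl | hn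
  · exact qCoeff_zero N 1 h
  · refine hind n ⟨_, hmem⟩ n fun hd => ?_
    exact absurd (Nat.le_of_dvd hn hd) (not_le.mpr (Nat.lt_pow_self hp.one_lt))

end Fermat.Agent.S48.W1
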