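import Fermat.Agent.S48.W1.Lat
import Fermat.Agent.S48.W1.Abs.Sys

/-!
# S48 / W1b : the conjugates of an eigenform; there are finitely many conjugate eigensystems
-/

set_option autoImplicit false

open UpperHalfPlane ModularForm CongruenceSubgroup
open scoped MatrixGroups Manifold

namespace Fermat.Agent.S48.W1

variable {N : ℕ} [NeZero N] {ε : DirichletCharacter ℂ N} {f : CuspForm (Gamma1 N) 1}

/-- the conjugate of an eigenform is an eigenform. -/
theorem isEigen_conj (hf : IsEigen N ε f) (σ : ℂ →+* ℂ) :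
    ∃ f' : CuspForm (Gamma1 N) 1, IsEigen N (ε.ringHomComp σ) f' ∧
      ∀ n, ModularFormClass.qCoeff f' n = σ (ModularFormClass.qCoeff f n) := by
  obtain ⟨f', h⟩ := exists_conj N σ f
  have h1 : ∀ n, ModularFormClass.qCoeff f' n = σ (ModularFormClass.qCoeff f n) := by
    intro n
    have := h 1 n
    rwa [dia_one, dia_one] at this
  refine ⟨f', ⟨by rw [h1, hf.one, map_one], ?_⟩, h1⟩
  intro p hp hpN n
  have := congrArg σ (hf.rel p hp hpN n)
  rw [map_add, map_mul, map_mul] at this
  simp only [h1]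
  rw [← this, MulChar.ringHomComp_apply]
  split_ifs
  · rfl
  · rw [map_zero]

open Classical in
/-- the conjugate eigensystem. -/
noncomputable def sys (N : ℕ) (f : CuspForm (Gamma1 N) 1) (σ : ℂ ≃+* ℂ) : ℕ → ℂ :=
  fun p => if p.Prime ∧ ¬ p ∣ N then σ (ModularFormClass.qCoeff f p) else 0

theorem finite_sys (hf : IsEigen N ε f) : (Set.range (sys N f)).Finite := by
  have := finiteDimensional N 1
  refine (Abs.finite_systems (fun p => Tp N 1 p)).subset ?_
  rintro _ ⟨σ, rfl⟩
  obtain ⟨f', hf', h⟩ := isEigen_conj hf σ.toRingHom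
  refine ⟨f', ne_zero_of_isEigen hf', fun p => ?_⟩
  by_cases hp : p.Prime ∧ ¬ p ∣ N
  · rw [Tp_eigen hf' hp.1 hp.2, h, sys, if_pos hp]
    rfl
  · rw [Tp, dif_neg hp, sys, if_neg hp, zero_smul]
    rfl

end Fermat.Agent.S48.W1
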